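import Mathlib

/-!
# Algebraic input for the cyclotomic case, part 1 (one number field)

* `natCast_eq_of_pow_eq` : exponents of a primitive root are determined mod `m`;
* `absNorm_eq_one_of_primitiveRoot` : a prime `P ∤ m` of a number field containing a primitive
  `m`-th root of unity has `N P ≡ 1 mod m`;
* `card_le_of_under_eq` : at most `#G` primes above a given prime (`G` a finite group acting with
  invariant ring `R`).
-/

set_option autoImplicit false
set_option linter.style.haveILetI false

namespace Fermat.Agent.Lib.Cheb.H521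

open NumberField IsDedekindDomain Ideal
open scoped Pointwise

/-- Exponents of a primitive `m`-th root of unity are determined modulo `m`. -/
lemma natCast_eq_of_pow_eq {R : Type*} [CommRing R] [IsDomain R] {ζ : R} {m : ℕ}
    (hζ : IsPrimitiveRoot ζ m) [NeZero m] {i j : ℕ} (h : ζ ^ i = ζ ^ j) :
    (i : ZMod m) = (j : ZMod m) := by
  have hζ0 : ζ ≠ 0 := hζ.ne_zero (NeZero.ne m)
  have key : ∀ i j : ℕ, i ≤ j → ζ ^ i = ζ ^ j → (i : ZMod m) = (j : ZMod m) := by
    intro i j hij h
    have h1 : ζ ^ i * ζ ^ (j - i) = ζ ^ i * 1 := by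
      rw [← pow_add, Nat.add_sub_cancel' hij, mul_one, h]
    have h2 : ζ ^ (j - i) = 1 := mul_left_cancel₀ (pow_ne_zero _ hζ0) h1
    have h3 : m ∣ j - i := (hζ.pow_eq_one_iff_dvd _).mp h2
    rw [ZMod.natCast_eq_natCast_iff]
    exact (Nat.modEq_iff_dvd' hij).mpr h3
  rcases le_total i j with hij | hij
  · exact key i j hij h
  · exact (key j i hij h.symm).symm

/-- the quotient of `𝓞 L` by a nonzero prime is finite -/
lemma finite_quot_heightOne {L : Type*} [Field L] [NumberField L]
    (P : HeightOneSpectrum (𝓞 L)) : Finite (𝓞 L ⧸ P.asIdeal) :=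
  Ideal.finiteQuotientOfFreeOfNeBot P.asIdeal P.ne_bot

/-- A prime of a number field containing a primitive `m`-th root of unity, not dividing `m`,
has norm `≡ 1 mod m`. -/
theorem absNorm_eq_one_of_primitiveRoot {L : Type*} [Field L] [NumberField L] {m : ℕ} [NeZero m]
    {ζ : L} (hζ : IsPrimitiveRoot ζ m) (P : HeightOneSpectrum (𝓞 L))
    (hP : (m : 𝓞 L) ∉ P.asIdeal) : ((absNorm P.asIdeal : ℕ) : ZMod m) = 1 := by
  haveI := finite_quot_heightOne P
  haveI : P.asIdeal.IsMaximal := P.isMaximal
  letI := Ideal.Quotient.field P.asIdeal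
  -- the identity is a Frobenius for `𝓞 L` over itself
  have hunder : P.asIdeal.under (𝓞 L) = P.asIdeal := by
    ext x; simp [Ideal.under_def]
  have hcard : Nat.card (𝓞 L ⧸ P.asIdeal.under (𝓞 L)) = absNorm P.asIdeal := by
    rw [hunder, Ideal.absNorm_apply, Submodule.cardQuot_apply]
  have hfrob : (AlgHom.id (𝓞 L) (𝓞 L)).IsArithFrobAt P.asIdeal := by
    intro x
    rw [hcard, AlgHom.id_apply, ← Ideal.Quotient.eq, map_pow]
    have : Fintype (𝓞 L ⧸ P.asIdeal) := Fintype.ofFinite _
    rw [Ideal.absNorm_apply, Submodule.cardQuot_apply, Nat.card_eq_fintype_card]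
    exact (FiniteField.pow_card _).symm
  set ζ' : 𝓞 L := hζ.toInteger with hζ'
  have hζ'prim : IsPrimitiveRoot ζ' m := hζ.toInteger_isPrimitiveRoot
  have h1 := hfrob.apply_of_pow_eq_one hζ'prim.pow_eq_one hP
  rw [hcard, AlgHom.id_apply] at h1
  have h2 : ζ' ^ absNorm P.asIdeal = ζ' ^ 1 := by rw [pow_one]; exact h1.symm
  simpa using natCast_eq_of_pow_eq hζ'prim h2

/-- At most `#G` primes lie above a given prime, if `G` is a finite group acting on `S` with
invariant ring `R`. -/
theorem card_le_of_under_eq {R S G : Type*} [CommRing R] [CommRing S] [Algebra R S] [Group G]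
    [Finite G] [MulSemiringAction G S] [SMulCommClass G R S] [Algebra.IsInvariant R S G]
    (t : Finset (Ideal S)) (ht : ∀ P ∈ t, P.IsPrime) (p : Ideal R)
    (hp : ∀ P ∈ t, P.under R = p) : t.card ≤ Nat.card G := by
  classical
  rcases t.eq_empty_or_nonempty with rfl | ⟨P₀, hP₀⟩
  · simp
  have := Fintype.ofFinite G
  have hsub : t ⊆ (Finset.univ : Finset G).image (fun σ => σ • P₀) := by
    intro Q hQ
    haveI := ht P₀ hP₀
    haveI := ht Q hQ
    obtain ⟨σ, hσ⟩ := Algebra.IsInvariant.exists_smul_of_under_eq R S G P₀ Q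
      ((hp P₀ hP₀).trans (hp Q hQ).symm)
    exact Finset.mem_image.mpr ⟨σ, Finset.mem_univ _, hσ.symm⟩
  calc t.card ≤ ((Finset.univ : Finset G).image (fun σ => σ • P₀)).card := Finset.card_le_card hsub
    _ ≤ (Finset.univ : Finset G).card := Finset.card_image_le
    _ = Nat.card G := by rw [Finset.card_univ, Nat.card_eq_fintype_card]

end Fermat.Agent.Lib.Cheb.H521
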