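import Mathlib

/-!
# Summation along a map with bounded fibres

If `π : X → Y` has fibres of cardinality at most `n` and `h : Y → ℝ` is nonnegative and summable,
then `h ∘ π` is summable with `∑' x, h (π x) ≤ n * ∑' y, h y`; more generally for `u ≤ h ∘ π`.
-/

set_option autoImplicit false

namespace Fermat.Agent.Lib.Cheb.H521

open Finset

theorem sum_comp_le_of_card_fiber_le {X Y : Type*} (π : X → Y) (n : ℕ)
    (hfib : ∀ (y : Y) (t : Finset X), (∀ x ∈ t, π x = y) → t.card ≤ n)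
    {h : Y → ℝ} (h0 : ∀ y, 0 ≤ h y) (hs : Summable h) (t : Finset X) :
    ∑ x ∈ t, h (π x) ≤ n * ∑' y, h y := by
  classical
  rw [Finset.sum_comp h π]
  calc ∑ b ∈ t.image π, #{a ∈ t | π a = b} • h b
      ≤ ∑ b ∈ t.image π, (n : ℝ) * h b := by
        refine Finset.sum_le_sum fun b _ => ?_
        rw [nsmul_eq_mul]
        have : #{a ∈ t | π a = b} ≤ n := hfib b _ fun x hx => (Finset.mem_filter.mp hx).2
        exact mul_le_mul_of_nonneg_right (by exact_mod_cast this) (h0 b)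
    _ = n * ∑ b ∈ t.image π, h b := by rw [Finset.mul_sum]
    _ ≤ n * ∑' y, h y := by
        gcongr
        exact hs.sum_le_tsum _ fun y _ => h0 y

theorem summable_of_le_comp_of_card_fiber_le {X Y : Type*} (π : X → Y) (n : ℕ)
    (hfib : ∀ (y : Y) (t : Finset X), (∀ x ∈ t, π x = y) → t.card ≤ n)
    {h : Y → ℝ} (h0 : ∀ y, 0 ≤ h y) (hs : Summable h) {u : X → ℝ} (u0 : ∀ x, 0 ≤ u x)
    (hu : ∀ x, u x ≤ h (π x)) :
    Summable u ∧ ∑' x, u x ≤ n * ∑' y, h y := by
  have key : ∀ t : Finset X, ∑ x ∈ t, u x ≤ n * ∑' y, h y := fun t =>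
    (Finset.sum_le_sum fun x _ => hu x).trans (sum_comp_le_of_card_fiber_le π n hfib h0 hs t)
  have hsum : Summable u := summable_of_sum_le u0 key
  exact ⟨hsum, hsum.tsum_le_of_sum_le key⟩

end Fermat.Agent.Lib.Cheb.H521
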