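import Fermat.Agent.Lib.Cheb.H521.Core3
import Fermat.Agent.Lib.Cheb.H521.Alg1
import Fermat.Agent.Lib.Cheb.H521.Fiber

/-!
# Algebraic input for the cyclotomic case, part 2 (an extension `L/K` of number fields)

* `primeUnder P` : the prime of `K` below a prime `P` of `L`;
* `absNorm_eq_pow_primeUnder` : `N P = (N 𝔮)^f`, `f ≥ 1`;
* `le_mul_TT_one` (hypothesis `H2` of `DirichletInput`): if `L` contains a primitive `m`-th root of
  unity and at most `n` primes of `L` lie above each prime of `K`, then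
  `n * ∑_{N𝔮 ≡ 1} N𝔮^(-s) ≥ log (1/(s-1)) - C`.
-/

set_option autoImplicit false
set_option linter.style.haveILetI false

namespace Fermat.Agent.Lib.Cheb.H521

open NumberField IsDedekindDomain Ideal Filter Topology
open Fermat.Agent.Lib.Cheb.H761

set_option linter.unusedSectionVars false
set_option linter.unusedVariables false

noncomputable section

variable (K : Type*) {L : Type*} [Field K] [NumberField K] [Field L] [NumberField L] [Algebra K L]

/-- The prime of `K` below a prime of `L`. -/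
def primeUnder (P : HeightOneSpectrum (𝓞 L)) : HeightOneSpectrum (𝓞 K) where
  asIdeal := P.asIdeal.under (𝓞 K)
  isPrime := Ideal.IsPrime.under _ _
  ne_bot := Ideal.under_ne_bot (𝓞 K) P.ne_bot

lemma primeUnder_asIdeal (P : HeightOneSpectrum (𝓞 L)) :
    (primeUnder K P).asIdeal = P.asIdeal.under (𝓞 K) := rfl

/-- `N P = (N 𝔮)^f` with `f ≥ 1`. -/
lemma absNorm_eq_pow_primeUnder (P : HeightOneSpectrum (𝓞 L)) :
    ∃ f : ℕ, 1 ≤ f ∧ absNorm P.asIdeal = absNorm (primeUnder K P).asIdeal ^ f := by
  haveI : P.asIdeal.LiesOver (primeUnder K P).asIdeal := ⟨rfl⟩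
  haveI : (primeUnder K P).asIdeal.IsMaximal := (primeUnder K P).isMaximal
  refine ⟨(primeUnder K P).asIdeal.inertiaDeg' P.asIdeal, ?_, ?_⟩
  · exact Nat.one_le_iff_ne_zero.mpr (Ideal.inertiaDeg'_ne_zero _ _)
  · exact Ideal.absNorm_eq_pow_inertiaDeg'_of_liesOver P.asIdeal (primeUnder K P).asIdeal
      (primeUnder K P).isPrime (primeUnder K P).ne_bot

/-- If the norm of the prime below `P` is prime to `m`, then `m ∉ P`. -/
lemma natCast_notMem_of_isUnit {m : ℕ} (P : HeightOneSpectrum (𝓞 L))
    (h : IsUnit ((absNorm (primeUnder K P).asIdeal : ℕ) : ZMod m)) :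
    (m : 𝓞 L) ∉ P.asIdeal := by
  intro hm
  rw [ZMod.isUnit_iff_coprime] at h
  have hmK : (m : 𝓞 K) ∈ (primeUnder K P).asIdeal := by
    rw [primeUnder_asIdeal, Ideal.under_def, Ideal.mem_comap, map_natCast]
    exact hm
  have hN : ((absNorm (primeUnder K P).asIdeal : ℕ) : 𝓞 K) ∈ (primeUnder K P).asIdeal :=
    Ideal.absNorm_mem _
  obtain ⟨u, v, huv⟩ := (Nat.isCoprime_iff_coprime.mpr h)
  have h1 : (1 : 𝓞 K) ∈ (primeUnder K P).asIdeal := by
    have : ((u * (absNorm (primeUnder K P).asIdeal : ℤ) + v * (m : ℤ) : ℤ) : 𝓞 K) = 1 := by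
      rw [huv]; simp
    rw [← this]
    push_cast
    exact Ideal.add_mem _ (Ideal.mul_mem_left _ _ hN) (Ideal.mul_mem_left _ _ hmK)
  exact (primeUnder K P).isPrime.ne_top ((Ideal.eq_top_iff_one _).mpr h1)

variable {K}

/-- The comparison of prime sums giving hypothesis `H2`. -/
theorem primeSum_le_mul {m : ℕ} [NeZero m] {ζ : L} (hζ : IsPrimitiveRoot ζ m) (n : ℕ)
    (hfib : ∀ (𝔮 : HeightOneSpectrum (𝓞 K)) (t : Finset (HeightOneSpectrum (𝓞 L))),
      (∀ P ∈ t, primeUnder K P = 𝔮) → t.card ≤ n) {s : ℝ} (hs : 1 < s) :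
    primeSum L s ≤
      n * (TT K m 1 s + primeSum K 2 + ((finite_nonunit K m).toFinset.card : ℝ)) := by
  classical
  set E := (finite_nonunit K m).toFinset with hE
  -- the comparison function on the primes of `K`
  let h : HeightOneSpectrum (𝓞 K) → ℝ := fun 𝔮 =>
    (if ((absNorm 𝔮.asIdeal : ℕ) : ZMod m) = 1 then normPow K s 𝔮.asIdeal else 0) +
      normPow K 2 𝔮.asIdeal + (if 𝔮 ∈ E then 1 else 0)
  have hE_sum : Summable (fun 𝔮 : HeightOneSpectrum (𝓞 K) => if 𝔮 ∈ E then (1 : ℝ) else 0) :=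
    summable_of_hasFiniteSupport ((Finset.finite_toSet E).subset fun 𝔮 h𝔮 => by
      by_contra hcon
      simp only [Function.mem_support, ne_eq] at h𝔮
      exact h𝔮 (if_neg hcon))
  have hE_tsum : ∑' 𝔮 : HeightOneSpectrum (𝓞 K), (if 𝔮 ∈ E then (1 : ℝ) else 0) = E.card := by
    rw [tsum_eq_sum (s := E) (fun 𝔮 h𝔮 => if_neg h𝔮)]
    simp
  have h2sum := summable_primeSum K (show (1 : ℝ) < 2 by norm_num)
  have hTsum := summable_TT K m 1 hs
  have hsum : Summable h := (hTsum.add h2sum).add hE_sum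
  have htsum : ∑' 𝔮, h 𝔮 = TT K m 1 s + primeSum K 2 + E.card := by
    rw [(hTsum.add h2sum).tsum_add hE_sum, hTsum.tsum_add h2sum, hE_tsum]
    rfl
  have h0 : ∀ 𝔮, 0 ≤ h 𝔮 := by
    intro 𝔮
    have h1 : (0 : ℝ) ≤ if ((absNorm 𝔮.asIdeal : ℕ) : ZMod m) = 1 then normPow K s 𝔮.asIdeal
        else 0 := by
      split_ifs
      · exact normPow_nonneg K s _
      · exact le_rfl
    have h2 : (0 : ℝ) ≤ if 𝔮 ∈ E then (1 : ℝ) else 0 := by split_ifs <;> norm_num
    have h3 := normPow_nonneg K 2 𝔮.asIdeal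
    simp only [h]
    linarith
  -- pointwise comparison
  have hpt : ∀ P : HeightOneSpectrum (𝓞 L), normPow L s P.asIdeal ≤ h (primeUnder K P) := by
    intro P
    have h1 : (0 : ℝ) ≤ if ((absNorm (primeUnder K P).asIdeal : ℕ) : ZMod m) = 1 then
        normPow K s (primeUnder K P).asIdeal else 0 := by
      split_ifs
      · exact normPow_nonneg K s _
      · exact le_rfl
    have h2 : (0 : ℝ) ≤ if primeUnder K P ∈ E then (1 : ℝ) else 0 := by split_ifs <;> norm_num
    have h3 := normPow_nonneg K 2 (primeUnder K P).asIdeal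
    by_cases hPE : primeUnder K P ∈ E
    · -- `𝔮 ∣ m`
      have : normPow L s P.asIdeal ≤ 1 := (normPow_le_half L hs.le P).trans (by norm_num)
      simp only [h, if_pos hPE]
      linarith
    · have hunit : IsUnit ((absNorm (primeUnder K P).asIdeal : ℕ) : ZMod m) := by
        by_contra hcon
        exact hPE (by simpa [hE] using hcon)
      have hmP := natCast_notMem_of_isUnit K P hunit
      have hN1 := absNorm_eq_one_of_primitiveRoot hζ P hmP
      obtain ⟨f, hf1, hf⟩ := absNorm_eq_pow_primeUnder K P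
      have hq2 : (2 : ℝ) ≤ absNorm (primeUnder K P).asIdeal := by
        exact_mod_cast two_le_absNorm K (primeUnder K P)
      rcases Nat.eq_or_lt_of_le hf1 with hf1' | hf2
      · -- `f = 1`
        rw [← hf1', pow_one] at hf
        have e1 : normPow L s P.asIdeal = normPow K s (primeUnder K P).asIdeal := by
          simp only [normPow, hf]
        rw [hf] at hN1
        simp only [h, if_pos hN1, if_neg hPE, e1]
        linarith
      · -- `f ≥ 2`
        have e1 : normPow L s P.asIdeal ≤ normPow K 2 (primeUnder K P).asIdeal := by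
          simp only [normPow, hf]
          have hq0 : (0 : ℝ) < absNorm (primeUnder K P).asIdeal := by linarith
          have hq1 : (1 : ℝ) ≤ absNorm (primeUnder K P).asIdeal := by linarith
          push_cast
          rw [← Real.rpow_natCast, ← Real.rpow_mul hq0.le]
          apply Real.rpow_le_rpow_of_exponent_le hq1
          have hf2' : (2 : ℝ) ≤ f := by exact_mod_cast hf2
          nlinarith
        simp only [h, if_neg hPE]
        linarith
  have key := summable_of_le_comp_of_card_fiber_le (primeUnder K (L := L)) n hfib h0 hsum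
    (fun P => normPow_nonneg L s P.asIdeal) hpt
  rw [htsum] at key
  exact key.2

end

end Fermat.Agent.Lib.Cheb.H521
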