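import Fermat.Agent.Lib.Cheb.H521.Alg2

/-!
# Algebraic input for the cyclotomic case, part 3 (the Galois situation)

`L/ℚ` Galois, `ζ ∈ L` a primitive `m`-th root of unity, `g ∈ Gal(L/ℚ)` with `⟨g⟩` acting
faithfully on `ζ`, `F = Fg L g` the fixed field of `⟨g⟩`, `a = aOf g hζ` the unit with
`g ζ = ζ ^ a`.
-/

set_option autoImplicit false
set_option linter.style.haveILetI false

namespace Fermat.Agent.Lib.Cheb.H521

open NumberField IsDedekindDomain Ideal Filter Topology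
open Fermat.Agent.Lib.Cheb.H761
open scoped Pointwise

set_option linter.unusedSectionVars false
set_option linter.unusedVariables false

noncomputable section

/-- lying over -/
lemma exists_primeUnder_eq {K : Type*} {L : Type*} [Field K] [NumberField K] [Field L]
    [NumberField L] [Algebra K L] (𝔮 : HeightOneSpectrum (𝓞 K)) :
    ∃ P : HeightOneSpectrum (𝓞 L), primeUnder K P = 𝔮 := by
  haveI : 𝔮.asIdeal.IsMaximal := 𝔮.isMaximal
  have hinj : Function.Injective (algebraMap (𝓞 K) (𝓞 L)) :=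
    FaithfulSMul.algebraMap_injective _ _
  have hker : RingHom.ker (algebraMap (𝓞 K) (𝓞 L)) ≤ 𝔮.asIdeal := by
    rw [(RingHom.injective_iff_ker_eq_bot _).mp hinj]; exact bot_le
  obtain ⟨Q, hQmax, hQ⟩ := Ideal.exists_ideal_over_maximal_of_isIntegral 𝔮.asIdeal hker
  have hQne : Q ≠ ⊥ := by
    rintro rfl
    apply 𝔮.ne_bot
    rw [← hQ]
    exact (RingHom.injective_iff_ker_eq_bot _).mp hinj
  exact ⟨⟨Q, hQmax.isPrime, hQne⟩, HeightOneSpectrum.ext hQ⟩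

variable (L : Type) [Field L] [NumberField L] [IsGalois ℚ L] (g : L ≃ₐ[ℚ] L)

/-- the fixed field of `⟨g⟩` -/
abbrev Fg : IntermediateField ℚ L := IntermediateField.fixedField (Subgroup.zpowers g)

theorem isGaloisGroup_Fg : IsGaloisGroup (Subgroup.zpowers g) (Fg L g) L :=
  IsGaloisGroup.subgroup (L ≃ₐ[ℚ] L) ℚ L (Subgroup.zpowers g)

theorem isGaloisGroup_int :
    IsGaloisGroup (Subgroup.zpowers g) (𝓞 (Fg L g)) (𝓞 L) :=
  haveI := isGaloisGroup_Fg L g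
  IsGaloisGroup.of_isFractionRing (Subgroup.zpowers g) (𝓞 (Fg L g)) (𝓞 L) (Fg L g) L

theorem isGaloisGroup_int_rat :
    IsGaloisGroup (L ≃ₐ[ℚ] L) ℤ (𝓞 L) :=
  IsGaloisGroup.of_isFractionRing (L ≃ₐ[ℚ] L) ℤ (𝓞 L) ℚ L

variable {L} {m : ℕ} [NeZero m] {ζ : L} (hζ : IsPrimitiveRoot ζ m)

/-- the unit `a` mod `m` with `g ζ = ζ ^ a` -/
abbrev aOf : (ZMod m)ˣ := hζ.autToPow ℚ g

/-- If `τ ζ = ζ ^ N` then `a(τ) = N` in `ZMod m`. -/
lemma aOf_eq_of_apply (τ : L ≃ₐ[ℚ] L) (N : ℕ) (h : τ ζ = ζ ^ N) :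
    ((aOf τ hζ : (ZMod m)ˣ) : ZMod m) = (N : ZMod m) := by
  have hspec := hζ.autToPow_spec ℚ τ
  rw [h] at hspec
  have := natCast_eq_of_pow_eq hζ hspec
  rwa [ZMod.natCast_zmod_val] at this

lemma aOf_eq_one_iff (τ : L ≃ₐ[ℚ] L) : aOf τ hζ = 1 ↔ τ ζ = ζ := by
  constructor
  · intro h
    have hspec := hζ.autToPow_spec ℚ τ
    have hspec1 := hζ.autToPow_spec ℚ (1 : L ≃ₐ[ℚ] L)
    rw [map_one] at hspec1
    rw [show hζ.autToPow ℚ τ = 1 from h] at hspec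
    rw [← hspec, hspec1]
    rfl
  · intro h
    have := aOf_eq_of_apply hζ τ 1 (by rw [pow_one]; exact h)
    exact Units.ext (by simpa using this)

lemma aOf_pow (k : ℕ) : aOf (g ^ k) hζ = (aOf g hζ) ^ k := map_pow _ _ _

variable (hg : ∀ k : ℕ, (g ^ k) ζ = ζ → g ^ k = 1)

include hg in
lemma orderOf_aOf : orderOf (aOf g hζ) = orderOf g := by
  rw [orderOf_eq_orderOf_iff]
  intro k
  rw [← aOf_pow, aOf_eq_one_iff]
  exact ⟨hg k, fun h => by rw [h]; rfl⟩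

include hζ hg in
/-- an element of `⟨g⟩` acting on `ζ` like `g` is `g` -/
lemma eq_of_mem_zpowers_of_apply (σ : L ≃ₐ[ℚ] L) (hσ : σ ∈ Subgroup.zpowers g)
    (h : σ ζ = g ζ) : σ = g := by
  obtain ⟨k, rfl⟩ := mem_powers_iff_mem_zpowers.mpr hσ
  dsimp only at h ⊢
  have h1 : aOf (g ^ k) hζ = aOf g hζ := by
    have e1 := hζ.autToPow_spec ℚ (g ^ k)
    have e2 := hζ.autToPow_spec ℚ g
    rw [h, ← e2] at e1
    have := natCast_eq_of_pow_eq hζ e1
    rw [ZMod.natCast_zmod_val, ZMod.natCast_zmod_val] at this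
    exact Units.ext this
  rw [aOf_pow] at h1
  -- `a ^ k = a ^ 1`, so `k ≡ 1 mod orderOf a = orderOf g`
  have h2 : (aOf g hζ) ^ k = (aOf g hζ) ^ 1 := by rw [h1, pow_one]
  rw [pow_eq_pow_iff_modEq, orderOf_aOf g hζ hg, ← pow_eq_pow_iff_modEq] at h2
  rw [h2, pow_one]

end

end Fermat.Agent.Lib.Cheb.H521
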