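import Fermat.Agent.Lib.Cheb.H521.Alg3

/-!
# Algebraic input for the cyclotomic case, part 4 (Frobenius elements)

In the Galois situation of `Alg3`:
* `exists_frob` : a prime `P ∤ m` of `L` has a Frobenius `σ ∈ ⟨g⟩` relative to `F`, and
  `σ ζ = ζ ^ N(P ∩ F)`;
* `norm_mem_powers` (hypothesis `H1`): `N 𝔮 mod m ∈ ⟨a⟩` for the primes `𝔮 ∤ m` of `F`;
* `card_fiber_le` : at most `orderOf a` primes of `L` above a prime of `F`;
* `isArithFrobAt_of_norm` : a prime `𝔮` of `F` of prime norm `p ≡ a mod m` has `g` as Frobenius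
  (over `ℤ`) at every prime of `L` above it.
-/

set_option autoImplicit false
set_option linter.style.haveILetI false

namespace Fermat.Agent.Lib.Cheb.H521

open NumberField IsDedekindDomain Ideal Filter Topology
open Fermat.Agent.Lib.Cheb.H761
open scoped Pointwise

set_option linter.unusedSectionVars false
set_option linter.unusedVariables false

noncomputable section

variable {L : Type} [Field L] [NumberField L] [IsGalois ℚ L] (g : L ≃ₐ[ℚ] L)
  {m : ℕ} [NeZero m] {ζ : L} (hζ : IsPrimitiveRoot ζ m)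

lemma card_quot_primeUnder (K : Type*) [Field K] [NumberField K] [Algebra K L]
    (P : HeightOneSpectrum (𝓞 L)) :
    Nat.card (𝓞 K ⧸ P.asIdeal.under (𝓞 K)) = absNorm (primeUnder K P).asIdeal := by
  rw [Ideal.absNorm_apply, Submodule.cardQuot_apply]
  rfl

include hζ in
/-- Frobenius relative to `F` at a prime `P ∤ m`. -/
theorem exists_frob (P : HeightOneSpectrum (𝓞 L)) (hmP : (m : 𝓞 L) ∉ P.asIdeal) :
    ∃ σ : L ≃ₐ[ℚ] L, σ ∈ Subgroup.zpowers g ∧
      (∀ x : 𝓞 L, σ • x - x ^ absNorm (primeUnder (Fg L g) P).asIdeal ∈ P.asIdeal) ∧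
      σ ζ = ζ ^ absNorm (primeUnder (Fg L g) P).asIdeal := by
  haveI hGG := isGaloisGroup_int L g
  haveI : Algebra.IsInvariant (𝓞 (Fg L g)) (𝓞 L) (Subgroup.zpowers g) := hGG.isInvariant
  haveI : SMulCommClass (Subgroup.zpowers g) (𝓞 (Fg L g)) (𝓞 L) := hGG.commutes
  haveI := finite_quot_heightOne P
  obtain ⟨σ, hσ⟩ := IsArithFrobAt.exists_of_isInvariant (𝓞 (Fg L g)) (Subgroup.zpowers g) P.asIdeal
  have hcard := card_quot_primeUnder (Fg L g) P
  refine ⟨σ.1, σ.2, fun x => ?_, ?_⟩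
  · have := hσ x
    rw [hcard] at this
    exact this
  · set ζ' : 𝓞 L := hζ.toInteger with hζ'
    have hζ'prim : IsPrimitiveRoot ζ' m := hζ.toInteger_isPrimitiveRoot
    have h1 := hσ.apply_of_pow_eq_one hζ'prim.pow_eq_one hmP
    rw [hcard] at h1
    have h2 := congrArg (fun y : 𝓞 L => (y : L)) h1
    have hcoe : ((ζ' : 𝓞 L) : L) = ζ := rfl
    have h3 : ((σ • ζ' : 𝓞 L) : L) = σ.1 ζ := rfl
    simp only [map_pow] at h2
    rw [← h3, ← hcoe]
    exact h2

include hζ in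
/-- Hypothesis `H1`: the norms of the primes of `F` prime to `m` lie in `⟨a⟩`. -/
theorem norm_mem_powers (𝔮 : HeightOneSpectrum (𝓞 (Fg L g)))
    (h𝔮 : IsUnit ((absNorm 𝔮.asIdeal : ℕ) : ZMod m)) :
    ∃ k : ℕ, ((absNorm 𝔮.asIdeal : ℕ) : ZMod m) = ((aOf g hζ ^ k : (ZMod m)ˣ) : ZMod m) := by
  obtain ⟨P, hP⟩ := exists_primeUnder_eq (L := L) 𝔮
  have hmP : (m : 𝓞 L) ∉ P.asIdeal := natCast_notMem_of_isUnit (Fg L g) P (by rwa [hP])
  obtain ⟨σ, hσmem, -, hσζ⟩ := exists_frob g hζ P hmP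
  obtain ⟨k, rfl⟩ := mem_powers_iff_mem_zpowers.mpr hσmem
  refine ⟨k, ?_⟩
  have := aOf_eq_of_apply hζ (g ^ k) _ hσζ
  rw [hP] at this
  rw [← this, aOf_pow]

/-- At most `#⟨g⟩` primes of `L` lie above a prime of `F`. -/
theorem card_fiber_le (𝔮 : HeightOneSpectrum (𝓞 (Fg L g)))
    (t : Finset (HeightOneSpectrum (𝓞 L))) (ht : ∀ P ∈ t, primeUnder (Fg L g) P = 𝔮) :
    t.card ≤ orderOf g := by
  classical
  haveI hGG := isGaloisGroup_int L g
  haveI : Algebra.IsInvariant (𝓞 (Fg L g)) (𝓞 L) (Subgroup.zpowers g) := hGG.isInvariant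
  haveI : SMulCommClass (Subgroup.zpowers g) (𝓞 (Fg L g)) (𝓞 L) := hGG.commutes
  have hinj : Function.Injective (fun P : HeightOneSpectrum (𝓞 L) => P.asIdeal) :=
    fun _ _ h => HeightOneSpectrum.ext h
  have h1 := card_le_of_under_eq (R := 𝓞 (Fg L g)) (S := 𝓞 L) (G := Subgroup.zpowers g)
    (t.image fun P => P.asIdeal)
    (fun I hI => by
      obtain ⟨P, -, rfl⟩ := Finset.mem_image.mp hI
      exact P.isPrime)
    𝔮.asIdeal
    (fun I hI => by
      obtain ⟨P, hP, rfl⟩ := Finset.mem_image.mp hI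
      exact congrArg HeightOneSpectrum.asIdeal (ht P hP))
  rwa [Finset.card_image_of_injective _ hinj, Nat.card_zpowers] at h1

end

end Fermat.Agent.Lib.Cheb.H521
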