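import Fermat.Agent.Lib.Cheb.H521.Alg4
import Fermat.Agent.Lib.Cheb.Spec

/-!
# Algebraic input for the cyclotomic case, part 5

* `isArithFrobAt_of_norm` : a prime `𝔮` of `F` of prime norm `p ≡ a mod m` has `g` as Frobenius
  (over `ℤ`) at a prime of `L` above it;
* `exists_norm_witness` : (from the Frobenius density theorem) a degree-one prime `𝔮₀` of `F`
  whose norm generates a group containing `a`.
-/

set_option autoImplicit false
set_option linter.style.haveILetI false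

namespace Fermat.Agent.Lib.Cheb.H521

open NumberField IsDedekindDomain Ideal Filter Topology
open Fermat.Agent.Lib.Cheb.H761
open scoped Pointwise

set_option linter.unusedSectionVars false
set_option linter.unusedVariables false

noncomputable section

variable {L : Type} [Field L] [NumberField L] [IsGalois ℚ L] (g : L ≃ₐ[ℚ] L)
  {m : ℕ} [NeZero m] {ζ : L} (hζ : IsPrimitiveRoot ζ m)

/-- If the prime number `p` lies in the prime `P`, the residue field of `ℤ` at `P ∩ ℤ` has `p`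
elements. -/
lemma card_quot_under_int (P : Ideal (𝓞 L)) [P.IsPrime] {p : ℕ} (hp : p.Prime)
    (hpP : (p : 𝓞 L) ∈ P) : Nat.card (ℤ ⧸ P.under ℤ) = p := by
  haveI : Fact p.Prime := ⟨hp⟩
  have hmax : (Ideal.span {(p : ℤ)}).IsMaximal := inferInstance
  have hle : Ideal.span {(p : ℤ)} ≤ P.under ℤ := by
    rw [Ideal.span_singleton_le_iff_mem, Ideal.under_def, Ideal.mem_comap]
    simpa using hpP
  have hne : P.under ℤ ≠ ⊤ := (Ideal.IsPrime.under ℤ P).ne_top
  rw [← hmax.eq_of_le hne hle]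
  exact Int.card_ideal_quot p

variable (hg : ∀ k : ℕ, (g ^ k) ζ = ζ → g ^ k = 1)

include hg in
/-- A prime `𝔮` of `F` of prime norm `p ≡ a mod m` has `g` as Frobenius over `ℤ` at a prime of `L`
above it. -/
theorem isArithFrobAt_of_norm (𝔮 : HeightOneSpectrum (𝓞 (Fg L g))) {p : ℕ} (hp : p.Prime)
    (hN : absNorm 𝔮.asIdeal = p) (hpa : (p : ZMod m) = ((aOf g hζ : (ZMod m)ˣ) : ZMod m)) :
    ∃ P : HeightOneSpectrum (𝓞 L), (p : 𝓞 L) ∈ P.asIdeal ∧ IsArithFrobAt ℤ g P.asIdeal := by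
  obtain ⟨P, hP⟩ := exists_primeUnder_eq (L := L) 𝔮
  have hunit : IsUnit ((absNorm (primeUnder (Fg L g) P).asIdeal : ℕ) : ZMod m) := by
    rw [hP, hN, hpa]; exact Units.isUnit _
  have hmP : (m : 𝓞 L) ∉ P.asIdeal := natCast_notMem_of_isUnit (Fg L g) P hunit
  obtain ⟨σ, hσmem, hσfrob, hσζ⟩ := exists_frob g hζ P hmP
  rw [hP, hN] at hσfrob hσζ
  have haσ : aOf σ hζ = aOf g hζ := Units.ext ((aOf_eq_of_apply hζ σ p hσζ).trans hpa)
  have hσg : σ ζ = g ζ := by
    rw [← hζ.autToPow_spec ℚ σ, ← hζ.autToPow_spec ℚ g]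
    show ζ ^ ((aOf σ hζ : (ZMod m)ˣ) : ZMod m).val = ζ ^ ((aOf g hζ : (ZMod m)ˣ) : ZMod m).val
    rw [haσ]
  have hσeq : σ = g := eq_of_mem_zpowers_of_apply g hζ hg σ hσmem hσg
  have hpP : (p : 𝓞 L) ∈ P.asIdeal := by
    have h1 : ((absNorm 𝔮.asIdeal : ℕ) : 𝓞 (Fg L g)) ∈ 𝔮.asIdeal := Ideal.absNorm_mem _
    rw [hN, ← hP, primeUnder_asIdeal, Ideal.under_def, Ideal.mem_comap, map_natCast] at h1
    exact h1
  refine ⟨P, hpP, fun x => ?_⟩
  rw [card_quot_under_int P.asIdeal hp hpP]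
  have := hσfrob x
  rw [hσeq] at this
  exact this

end

end Fermat.Agent.Lib.Cheb.H521
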