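import Fermat.Agent.Lib.Cheb.H521.Alg5

/-!
# Algebraic input for the cyclotomic case, part 6

* `exists_norm_witness` : from the finite-level Frobenius density theorem, a degree-one prime `𝔮₀`
  of `F = Fg L g`, prime to `m`, such that `a` is a power of `N 𝔮₀` mod `m`.
-/

set_option autoImplicit false
set_option linter.style.haveILetI false

namespace Fermat.Agent.Lib.Cheb.H521

open NumberField IsDedekindDomain Ideal Filter Topology
open Fermat.Agent.Lib.Cheb.H761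
open scoped Pointwise

set_option linter.unusedSectionVars false
set_option linter.unusedVariables false

noncomputable section

variable {L : Type} [Field L] [NumberField L] [IsGalois ℚ L] (g : L ≃ₐ[ℚ] L)
  {m : ℕ} [NeZero m] {ζ : L} (hζ : IsPrimitiveRoot ζ m)

/-- If every element of a finite field `k` satisfies `y ^ p = y` (`p > 1`), then `#k ≤ p`. -/
lemma card_le_of_forall_pow_eq {k : Type*} [Field k] [Fintype k] {p : ℕ} (hp : 1 < p)
    (h : ∀ y : k, y ^ p = y) : Fintype.card k ≤ p := by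
  classical
  have hne : (Polynomial.X ^ p - Polynomial.X : Polynomial k) ≠ 0 :=
    FiniteField.X_pow_card_sub_X_ne_zero k hp
  have hsub : (Finset.univ : Finset k).val ⊆ (Polynomial.X ^ p - Polynomial.X : Polynomial k).roots := by
    intro y _
    rw [Polynomial.mem_roots hne, Polynomial.IsRoot.def]
    simp [h y]
  have := Polynomial.card_le_degree_of_subset_roots hsub
  rwa [Finset.card_univ, FiniteField.X_pow_card_sub_X_natDegree_eq k hp] at this

include hζ in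
/-- A degree-one prime of `F` whose norm generates (mod `m`) a group containing `a`. -/
theorem exists_norm_witness (hM : Spec.FrobFiniteStatement) :
    ∃ (𝔮₀ : HeightOneSpectrum (𝓞 (Fg L g))) (p₀ j : ℕ), p₀.Prime ∧
      absNorm 𝔮₀.asIdeal = p₀ ∧ IsUnit ((p₀ : ℕ) : ZMod m) ∧
      ((aOf g hζ : (ZMod m)ˣ) : ZMod m) = ((p₀ : ℕ) : ZMod m) ^ j := by
  obtain ⟨p, P, τ, hp, hpS, hPprime, hpP, -, hτ, hzp⟩ := hM L g m.primeFactors
  haveI := hPprime
  have hm0 : m ≠ 0 := NeZero.ne m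
  have hpm : ¬ p ∣ m := fun hdvd => hpS (Nat.mem_primeFactors.mpr ⟨hp, hdvd, hm0⟩)
  have hcop : Nat.Coprime p m := (Nat.Prime.coprime_iff_not_dvd hp).mpr hpm
  have hunit : IsUnit ((p : ℕ) : ZMod m) := (ZMod.isUnit_iff_coprime p m).mpr hcop
  have hPne : P ≠ ⊥ := by
    rintro rfl
    have : (p : 𝓞 L) = 0 := by simpa using hpP
    exact hp.ne_zero (by exact_mod_cast this)
  set P' : HeightOneSpectrum (𝓞 L) := ⟨P, hPprime, hPne⟩ with hP'
  have hcard := card_quot_under_int P hp hpP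
  -- `m ∉ P`
  have hmP : (m : 𝓞 L) ∉ P := by
    intro hm
    obtain ⟨u, v, huv⟩ := (Nat.isCoprime_iff_coprime.mpr hcop)
    have h1 : (1 : 𝓞 L) ∈ P := by
      have : ((u * (p : ℤ) + v * (m : ℤ) : ℤ) : 𝓞 L) = 1 := by
        rw [huv]; simp
      rw [← this]
      push_cast
      exact Ideal.add_mem _ (Ideal.mul_mem_left _ _ hpP) (Ideal.mul_mem_left _ _ hm)
    exact hPprime.ne_top ((Ideal.eq_top_iff_one _).mpr h1)
  -- `τ ζ = ζ ^ p`
  set ζ' : 𝓞 L := hζ.toInteger with hζ'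
  have hζ'prim : IsPrimitiveRoot ζ' m := hζ.toInteger_isPrimitiveRoot
  have hτζ' := hτ.apply_of_pow_eq_one hζ'prim.pow_eq_one hmP
  rw [hcard] at hτζ'
  have hτζ : τ ζ = ζ ^ p := by
    have h2 := congrArg (fun y : 𝓞 L => (y : L)) hτζ'
    have hcoe : ((ζ' : 𝓞 L) : L) = ζ := rfl
    have h3 : ((τ • ζ' : 𝓞 L) : L) = τ ζ := rfl
    simp only [map_pow] at h2
    rw [← h3, ← hcoe]
    exact h2
  -- `g = τ ^ j`
  have hgmem : g ∈ Subgroup.zpowers τ := by rw [hzp]; exact Subgroup.mem_zpowers g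
  obtain ⟨j, hj⟩ := mem_powers_iff_mem_zpowers.mpr hgmem
  have hτmem : τ ∈ Subgroup.zpowers g := by rw [← hzp]; exact Subgroup.mem_zpowers τ
  have haτ : ((aOf τ hζ : (ZMod m)ˣ) : ZMod m) = (p : ZMod m) := aOf_eq_of_apply hζ τ p hτζ
  have hag : ((aOf g hζ : (ZMod m)ˣ) : ZMod m) = ((p : ℕ) : ZMod m) ^ j := by
    have : aOf g hζ = aOf τ hζ ^ j := by
      rw [← aOf_pow]; congr 1; exact hj.symm
    rw [this, Units.val_pow_eq_pow_val, haτ]
  -- the prime below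
  set 𝔮₀ := primeUnder (Fg L g) P' with h𝔮₀
  refine ⟨𝔮₀, p, j, hp, ?_, hunit, hag⟩
  -- `N 𝔮₀ = p`
  haveI : Finite (𝓞 (Fg L g) ⧸ 𝔮₀.asIdeal) := finite_quot_heightOne 𝔮₀
  haveI : Fintype (𝓞 (Fg L g) ⧸ 𝔮₀.asIdeal) := Fintype.ofFinite _
  haveI : 𝔮₀.asIdeal.IsMaximal := 𝔮₀.isMaximal
  letI := Ideal.Quotient.field 𝔮₀.asIdeal
  have hfix : ∀ y : 𝓞 (Fg L g) ⧸ 𝔮₀.asIdeal, y ^ p = y := by
    intro y
    obtain ⟨x, rfl⟩ := Ideal.Quotient.mk_surjective y
    rw [← map_pow, eq_comm, Ideal.Quotient.eq]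
    show x - x ^ p ∈ P.under (𝓞 (Fg L g))
    rw [Ideal.under_def, Ideal.mem_comap, map_sub, map_pow]
    have h1 := hτ (algebraMap (𝓞 (Fg L g)) (𝓞 L) x)
    rw [hcard] at h1
    have h2 : (MulSemiringAction.toAlgHom ℤ (𝓞 L) τ) (algebraMap (𝓞 (Fg L g)) (𝓞 L) x) =
        algebraMap (𝓞 (Fg L g)) (𝓞 L) x := by
      apply Subtype.ext
      show τ ((x : Fg L g) : L) = ((x : Fg L g) : L)
      exact (IntermediateField.mem_fixedField_iff _ _).mp (x : Fg L g).2 τ hτmem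
    rwa [h2] at h1
  have hle : absNorm 𝔮₀.asIdeal ≤ p := by
    rw [Ideal.absNorm_apply, Submodule.cardQuot_apply, Nat.card_eq_fintype_card]
    exact card_le_of_forall_pow_eq hp.one_lt hfix
  have hp𝔮 : (p : 𝓞 (Fg L g)) ∈ 𝔮₀.asIdeal := by
    show (p : 𝓞 (Fg L g)) ∈ P.under (𝓞 (Fg L g))
    rw [Ideal.under_def, Ideal.mem_comap, map_natCast]
    exact hpP
  -- `p ∣ N 𝔮₀`
  have hdvd : p ∣ absNorm 𝔮₀.asIdeal := by
    have h1 := Int.absNorm_under_dvd_absNorm 𝔮₀.asIdeal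
    have h2 : Nat.card (ℤ ⧸ 𝔮₀.asIdeal.under ℤ) = p := by
      haveI : Fact p.Prime := ⟨hp⟩
      have hmax : (Ideal.span {(p : ℤ)}).IsMaximal := inferInstance
      have hle' : Ideal.span {(p : ℤ)} ≤ 𝔮₀.asIdeal.under ℤ := by
        rw [Ideal.span_singleton_le_iff_mem, Ideal.under_def, Ideal.mem_comap]
        simpa using hp𝔮
      have hne : 𝔮₀.asIdeal.under ℤ ≠ ⊤ := (Ideal.IsPrime.under ℤ 𝔮₀.asIdeal).ne_top
      rw [← hmax.eq_of_le hne hle']
      exact Int.card_ideal_quot p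
    rw [Ideal.absNorm_apply, Submodule.cardQuot_apply] at h1
    rw [← h2]
    exact h1
  have hpos : 0 < absNorm 𝔮₀.asIdeal := by
    have := two_le_absNorm (Fg L g) 𝔮₀
    omega
  exact le_antisymm hle (Nat.le_of_dvd hpos hdvd)

end

end Fermat.Agent.Lib.Cheb.H521
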