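import Mathlib

/-!
# A continuous logarithm of a function with a nonzero limit is bounded

If `w : ℝ → ℂ` is continuous on `(1, ∞)` and `exp (w s) → ℓ ≠ 0` as `s → 1⁺`, then `w` is bounded
on some interval `(1, 1 + δ)`.
-/

set_option autoImplicit false

namespace Fermat.Agent.Lib.Cheb.H521

open Filter Topology

/-- A continuous function on a preconnected set with `exp (u s) = 1` everywhere is constant. -/
lemma eq_of_continuousOn_of_exp_eq {S : Set ℝ} (hS : IsPreconnected S) {u : ℝ → ℂ}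
    (hu : ContinuousOn u S) (hexp : ∀ s ∈ S, Complex.exp (u s) = 1) {x y : ℝ} (hx : x ∈ S)
    (hy : y ∈ S) : u x = u y := by
  have hk : ∀ s ∈ S, ∃ n : ℤ, u s = n * (2 * Real.pi * Complex.I) := fun s hs =>
    Complex.exp_eq_one_iff.mp (hexp s hs)
  have hpi : (2 * Real.pi : ℝ) ≠ 0 := by positivity
  -- `k s = Im (u s) / (2π)` is continuous and integer valued
  let k : ℝ → ℝ := fun s => (u s).im / (2 * Real.pi)
  have hkc : ContinuousOn k S :=
    (Complex.continuous_im.comp_continuousOn hu).div_const _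
  have hmaps : Set.MapsTo k S (Set.range ((↑) : ℤ → ℝ)) := fun s hs => by
    obtain ⟨n, hn⟩ := hk s hs
    refine ⟨n, ?_⟩
    show (n : ℝ) = (u s).im / (2 * Real.pi)
    rw [hn]
    have : ((n : ℂ) * (2 * Real.pi * Complex.I)).im = n * (2 * Real.pi) := by
      simp
    rw [this]
    field_simp
  have hdisc : IsDiscrete (Set.range ((↑) : ℤ → ℝ)) :=
    Int.isClosedEmbedding_coe_real.isInducing.isDiscrete_range
  have hkxy : k x = k y := hS.constant_of_mapsTo hdisc hkc hmaps hx hy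
  obtain ⟨n, hn⟩ := hk x hx
  obtain ⟨n', hn'⟩ := hk y hy
  have him : (u x).im = (u y).im := by
    have := hkxy
    simp only [k] at this
    field_simp at this
    exact this
  have hre : (u x).re = (u y).re := by
    rw [hn, hn']; simp
  exact Complex.ext hre him

theorem bounded_of_exp_tendsto {w : ℝ → ℂ} (hw : ContinuousOn w (Set.Ioi 1)) {ℓ : ℂ}
    (hℓ : ℓ ≠ 0) (h : Tendsto (fun s => Complex.exp (w s)) (𝓝[>] 1) (𝓝 ℓ)) :
    ∃ δ : ℝ, 0 < δ ∧ ∃ C : ℝ, ∀ s : ℝ, 1 < s → s < 1 + δ → ‖w s‖ ≤ C := by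
  set lam : ℂ := Complex.log ℓ with hlam
  have hexplam : Complex.exp lam = ℓ := Complex.exp_log hℓ
  -- `v s = exp (w s - lam) → 1`
  have hv : Tendsto (fun s => Complex.exp (w s - lam)) (𝓝[>] 1) (𝓝 1) := by
    have h1 : Tendsto (fun s => Complex.exp (w s) / ℓ) (𝓝[>] 1) (𝓝 (ℓ / ℓ)) :=
      h.div_const ℓ
    rw [div_self hℓ] at h1
    refine h1.congr fun s => ?_
    rw [Complex.exp_sub, hexplam]
  have hev : ∀ᶠ s in 𝓝[>] (1 : ℝ), ‖Complex.exp (w s - lam) - 1‖ < 1 / 2 := by
    have := hv.eventually (Metric.ball_mem_nhds (1 : ℂ) (by norm_num : (0 : ℝ) < 1 / 2))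
    filter_upwards [this] with s hs
    rwa [dist_eq_norm] at hs
  rw [eventually_nhdsWithin_iff, Metric.eventually_nhds_iff] at hev
  obtain ⟨δ, hδ, hδ2⟩ := hev
  have hball : ∀ s, 1 < s → s < 1 + δ → ‖Complex.exp (w s - lam) - 1‖ < 1 / 2 := by
    intro s hs1 hs2
    refine hδ2 ?_ hs1
    rw [Real.dist_eq, abs_of_pos (by linarith)]
    linarith
  set S : Set ℝ := Set.Ioo 1 (1 + δ) with hS
  have hSsub : S ⊆ Set.Ioi 1 := fun s hs => hs.1
  have hslit : ∀ s ∈ S, Complex.exp (w s - lam) ∈ Complex.slitPlane := by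
    intro s hs
    have h1 := hball s hs.1 hs.2
    have h2 : Complex.exp (w s - lam) = 1 + (Complex.exp (w s - lam) - 1) := by ring
    rw [h2]
    exact Complex.mem_slitPlane_of_norm_lt_one (by linarith)
  let u : ℝ → ℂ := fun s => w s - lam - Complex.log (Complex.exp (w s - lam))
  have hwS : ContinuousOn w S := hw.mono hSsub
  have hvc : ContinuousOn (fun s => Complex.exp (w s - lam)) S :=
    Complex.continuous_exp.comp_continuousOn (hwS.sub continuousOn_const)
  have huc : ContinuousOn u S :=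
    (hwS.sub continuousOn_const).sub (hvc.clog hslit)
  have huexp : ∀ s ∈ S, Complex.exp (u s) = 1 := by
    intro s hs
    simp only [u]
    rw [Complex.exp_sub, Complex.exp_log (Complex.exp_ne_zero _), div_self (Complex.exp_ne_zero _)]
  set s₀ : ℝ := 1 + δ / 2 with hs₀
  have hs₀S : s₀ ∈ S := ⟨by rw [hs₀]; linarith, by rw [hs₀]; linarith⟩
  refine ⟨δ, hδ, ‖lam‖ + 3 / 4 + ‖u s₀‖, fun s hs1 hs2 => ?_⟩
  have hsS : s ∈ S := ⟨hs1, hs2⟩
  have hconst : u s = u s₀ := eq_of_continuousOn_of_exp_eq isPreconnected_Ioo huc huexp hsS hs₀S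
  have hw_eq : w s = lam + Complex.log (Complex.exp (w s - lam)) + u s₀ := by
    rw [← hconst]; simp only [u]; ring
  have hlog : ‖Complex.log (Complex.exp (w s - lam))‖ ≤ 3 / 4 := by
    have h1 := hball s hs1 hs2
    have h2 : Complex.exp (w s - lam) = 1 + (Complex.exp (w s - lam) - 1) := by ring
    rw [h2]
    refine (Complex.norm_log_one_add_half_le_self h1.le).trans ?_
    linarith
  rw [hw_eq]
  calc ‖lam + Complex.log (Complex.exp (w s - lam)) + u s₀‖
      ≤ ‖lam‖ + ‖Complex.log (Complex.exp (w s - lam))‖ + ‖u s₀‖ := norm_add₃_le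
    _ ≤ ‖lam‖ + 3 / 4 + ‖u s₀‖ := by gcongr

end Fermat.Agent.Lib.Cheb.H521
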