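import Fermat.Agent.Lib.Cheb.H521.Ortho
import Fermat.Agent.Lib.Cheb.H521.Branch

/-!
# Dirichlet's argument over a number field: auxiliary bounds

`lp s = log (1 / (s - 1))`; all statements are "eventually as `s → 1⁺`".
-/

set_option autoImplicit false

namespace Fermat.Agent.Lib.Cheb.H521

open IsDedekindDomain Filter Topology NumberField Ideal
open Fermat.Agent.Lib.Cheb.H761

set_option linter.unusedSectionVars false
set_option linter.unusedVariables false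

noncomputable section

/-- `log (1 / (s - 1))` -/
def lp (s : ℝ) : ℝ := Real.log (1 / (s - 1))

lemma lp_eq (s : ℝ) : lp s = -Real.log (s - 1) := by
  rw [lp, one_div, Real.log_inv]

lemma tendsto_lp : Tendsto lp (𝓝[>] 1) atTop := by
  have h1 : Tendsto (fun s : ℝ => s - 1) (𝓝[>] 1) (𝓝[>] 0) := by
    refine tendsto_nhdsWithin_of_tendsto_nhds_of_eventually_within _ ?_ ?_
    · have : Tendsto (fun s : ℝ => s - 1) (𝓝 1) (𝓝 (1 - 1)) :=
        (continuous_id.sub continuous_const).tendsto 1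
      rw [sub_self] at this
      exact this.mono_left nhdsWithin_le_nhds
    · filter_upwards [self_mem_nhdsWithin] with s hs
      exact sub_pos.mpr (Set.mem_Ioi.mp hs)
  have h2 := Real.tendsto_log_nhdsGT_zero.comp h1
  have h3 : Tendsto (fun s : ℝ => -Real.log (s - 1)) (𝓝[>] 1) atTop :=
    tendsto_neg_atBot_atTop.comp h2
  exact h3.congr fun s => (lp_eq s).symm

lemma eventually_Ioc : ∀ᶠ s : ℝ in 𝓝[>] 1, 1 < s ∧ s ≤ 2 := by
  filter_upwards [Ioo_mem_nhdsGT (show (1 : ℝ) < 2 by norm_num)] with s hs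
  exact ⟨hs.1, hs.2.le⟩

variable (K : Type*) [Field K] [NumberField K] (m : ℕ) [NeZero m]

/-- The primes whose norm is not prime to `m` form a finite set. -/
lemma finite_nonunit :
    {𝔭 : HeightOneSpectrum (𝓞 K) | ¬ IsUnit ((absNorm 𝔭.asIdeal : ℕ) : ZMod m)}.Finite := by
  have hm0 : Ideal.span {(m : 𝓞 K)} ≠ 0 := by
    rw [Ne, Ideal.zero_eq_bot, Ideal.span_singleton_eq_bot]
    exact_mod_cast NeZero.ne m
  refine (Ideal.finite_factors hm0).subset fun 𝔭 h𝔭 => ?_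
  simp only [Set.mem_ofPred_eq] at h𝔭 ⊢
  rw [ZMod.isUnit_iff_coprime] at h𝔭
  have : 𝔭.asIdeal.IsMaximal := 𝔭.isMaximal
  obtain ⟨p, n, hn, hpmem, hp, hpn⟩ := Ideal.exists_prime_and_absNorm_eq_pow 𝔭.asIdeal
  have hpm : p ∣ m := by
    by_contra hcon
    apply h𝔭
    rw [hpn]
    exact Nat.Coprime.pow_left n ((Nat.Prime.coprime_iff_not_dvd hp).mpr hcon)
  rw [Ideal.dvd_iff_le, Ideal.span_singleton_le_iff_mem]
  obtain ⟨k, hk⟩ := hpm
  rw [hk, Nat.cast_mul]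
  exact Ideal.mul_mem_right _ _ hpmem

/-- `Re WW ≤ log ζ_K(s)`. -/
lemma re_WW_le_log_zetaI {m : ℕ} [NeZero m] (χ : DirichletCharacter ℂ m) {s : ℝ} (hs : 1 < s) :
    (WW K χ s).re ≤ Real.log (zetaI K s) := by
  have h1 := norm_LI_eq K χ hs
  have h2 := norm_LI_le K χ hs
  rw [h1] at h2
  have := Real.log_le_log (Real.exp_pos _) h2
  rwa [Real.log_exp] at this

/-- `log ζ_K(s) ≤ lp s + C` on `(1, 2]`. -/
lemma exists_log_zetaI_le :
    ∃ C : ℝ, ∀ s : ℝ, 1 < s → s ≤ 2 → Real.log (zetaI K s) ≤ lp s + C := by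
  obtain ⟨c₁, c₂, hc₁, hc₁₂, hb⟩ := exists_bounds_sub_one_mul_zetaI K
  refine ⟨Real.log c₂, fun s hs1 hs2 => ?_⟩
  obtain ⟨hlo, hhi⟩ := hb s hs1 hs2
  have hs0 : 0 < s - 1 := by linarith
  have hZ := zetaI_pos K hs1
  have hlog : Real.log ((s - 1) * zetaI K s) = Real.log (s - 1) + Real.log (zetaI K s) :=
    Real.log_mul hs0.ne' hZ.ne'
  have hl2 : Real.log ((s - 1) * zetaI K s) ≤ Real.log c₂ :=
    Real.log_le_log (hc₁.trans_le hlo) hhi
  rw [lp_eq]
  linarith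

/-- `primeSum K s ≥ lp s - C` on `(1, 2]`. -/
lemma exists_le_primeSum :
    ∃ C : ℝ, ∀ s : ℝ, 1 < s → s ≤ 2 → lp s - C ≤ primeSum K s := by
  obtain ⟨C, hC⟩ := exists_primeSum_bound K
  refine ⟨C, fun s hs1 hs2 => ?_⟩
  have := (abs_le.mp (hC s hs1 hs2)).1
  rw [lp_eq]
  linarith

variable {m}

/-- For a character `χ` taking the value `1` at the norms prime to `m`, the real part of `QQ` is
at least `primeSum - #E`. -/
lemma le_re_QQ_of_trivial (χ : DirichletCharacter ℂ m)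
    (hχ : ∀ 𝔭 : HeightOneSpectrum (𝓞 K), IsUnit ((absNorm 𝔭.asIdeal : ℕ) : ZMod m) →
      χ ((absNorm 𝔭.asIdeal : ℕ) : ZMod m) = 1) {s : ℝ} (hs : 1 < s) :
    primeSum K s - ((finite_nonunit K m).toFinset.card : ℝ) ≤ (QQ K χ s).re := by
  classical
  set E := (finite_nonunit K m).toFinset with hE
  -- `QQ` is the (real) sum over the primes with unit norm
  have hterm : ∀ 𝔭 : HeightOneSpectrum (𝓞 K), chiTerm K χ s 𝔭.asIdeal =
      (((if 𝔭 ∈ E then 0 else normPow K s 𝔭.asIdeal) : ℝ) : ℂ) := by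
    intro 𝔭
    by_cases h : 𝔭 ∈ E
    · rw [if_pos h]
      have h' : ¬ IsUnit ((absNorm 𝔭.asIdeal : ℕ) : ZMod m) := by
        simpa [hE] using h
      rw [chiTerm, MulChar.map_nonunit χ h']
      simp
    · rw [if_neg h]
      have h' : IsUnit ((absNorm 𝔭.asIdeal : ℕ) : ZMod m) := by
        by_contra hcon
        exact h (by simpa [hE] using hcon)
      rw [chiTerm, hχ 𝔭 h', one_mul]
  have hQ : QQ K χ s =
      ((∑' 𝔭 : HeightOneSpectrum (𝓞 K), (if 𝔭 ∈ E then 0 else normPow K s 𝔭.asIdeal) : ℝ) : ℂ) := by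
    rw [QQ, Complex.ofReal_tsum]
    exact tsum_congr hterm
  rw [hQ, Complex.ofReal_re]
  have hsum := summable_primeSum K hs
  have hsumE : Summable (fun 𝔭 : HeightOneSpectrum (𝓞 K) =>
      if 𝔭 ∈ E then normPow K s 𝔭.asIdeal else 0) :=
    summable_of_hasFiniteSupport ((Finset.finite_toSet E).subset fun 𝔭 h𝔭 => by
      by_contra hcon
      simp only [Function.mem_support, ne_eq] at h𝔭
      exact h𝔭 (if_neg hcon))
  have hsplit : ∀ 𝔭 : HeightOneSpectrum (𝓞 K),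
      (if 𝔭 ∈ E then 0 else normPow K s 𝔭.asIdeal) =
        normPow K s 𝔭.asIdeal - (if 𝔭 ∈ E then normPow K s 𝔭.asIdeal else 0) := by
    intro 𝔭; split_ifs <;> simp
  rw [tsum_congr hsplit, hsum.tsum_sub hsumE]
  have hEle : ∑' 𝔭 : HeightOneSpectrum (𝓞 K),
      (if 𝔭 ∈ E then normPow K s 𝔭.asIdeal else 0) ≤ (E.card : ℝ) := by
    rw [tsum_eq_sum (s := E) (fun 𝔭 h𝔭 => if_neg h𝔭)]
    calc ∑ 𝔭 ∈ E, (if 𝔭 ∈ E then normPow K s 𝔭.asIdeal else 0)
        ≤ ∑ 𝔭 ∈ E, (1 : ℝ) := by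
          refine Finset.sum_le_sum fun 𝔭 h𝔭 => ?_
          rw [if_pos h𝔭]
          exact (normPow_le_half K hs.le 𝔭).trans (by norm_num)
      _ = (E.card : ℝ) := by simp
  show primeSum K s - (E.card : ℝ) ≤ primeSum K s - _
  linarith

end

end Fermat.Agent.Lib.Cheb.H521
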