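import Fermat.Agent.Lib.Cheb.H521.Core1

/-!
# Dirichlet's argument over a number field: non-vanishing and the main estimate

Input (`DirichletInput K a`), for a number field `K`, a modulus `m` and a unit `a` mod `m`:
* `H1` the norms of the primes (prime to `m`) lie in `⟨a⟩`;
* `H2` `orderOf a * ∑_{N𝔭 ≡ 1} N𝔭^(-s) ≥ log (1/(s-1)) - C`;
* `H3` `L_K(s, χ ∘ N)` has a limit at `1⁺` when `χ a ≠ 1`.
Output: `φ(m) * ∑_{N𝔭 ≡ a} N𝔭^(-s) ≥ log (1/(s-1)) - C` eventually.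
-/

set_option autoImplicit false

namespace Fermat.Agent.Lib.Cheb.H521

open IsDedekindDomain Filter Topology NumberField Ideal
open Fermat.Agent.Lib.Cheb.H761

set_option linter.unusedSectionVars false
set_option linter.unusedVariables false

noncomputable section

variable (K : Type*) [Field K] [NumberField K] {m : ℕ} [NeZero m] (a : (ZMod m)ˣ)

/-- The hypotheses of Dirichlet's argument. -/
structure DirichletInput : Prop where
  H1 : ∀ 𝔭 : HeightOneSpectrum (𝓞 K), IsUnit ((absNorm 𝔭.asIdeal : ℕ) : ZMod m) →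
      ∃ k : ℕ, ((absNorm 𝔭.asIdeal : ℕ) : ZMod m) = ((a ^ k : (ZMod m)ˣ) : ZMod m)
  H2 : ∃ C : ℝ, ∀ s : ℝ, 1 < s → s ≤ 2 → lp s - C ≤ orderOf a * TT K m 1 s
  H3 : ∀ χ : DirichletCharacter ℂ m, χ (a : ZMod m) ≠ 1 →
      ∃ c : ℂ, Tendsto (fun s : ℝ => LI K χ s) (𝓝[>] 1) (𝓝 c)

variable {K a}

lemma DirichletInput.chi_eq_one (hin : DirichletInput K a) (χ : DirichletCharacter ℂ m)
    (hχ : χ (a : ZMod m) = 1) (𝔭 : HeightOneSpectrum (𝓞 K))
    (h𝔭 : IsUnit ((absNorm 𝔭.asIdeal : ℕ) : ZMod m)) :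
    χ ((absNorm 𝔭.asIdeal : ℕ) : ZMod m) = 1 := by
  obtain ⟨k, hk⟩ := hin.H1 𝔭 h𝔭
  rw [hk, Units.val_pow_eq_pow_val, map_pow, hχ, one_pow]

variable (K) in
/-- `∑_χ Re QQ = φ(m) · TT 1`. -/
lemma sum_re_QQ {s : ℝ} (hs : 1 < s) :
    ∑ χ : DirichletCharacter ℂ m, (QQ K χ s).re = (m.totient : ℝ) * TT K m 1 s := by
  have h := sum_inv_mul_QQ K m (a := (1 : ZMod m)) isUnit_one hs
  have hone : ((1 : ZMod m))⁻¹ = 1 := by
    have := ZMod.inv_mul_of_unit (1 : ZMod m) isUnit_one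
    rwa [mul_one] at this
  simp only [hone, map_one, one_mul] at h
  have h2 := congrArg Complex.re h
  rw [Complex.re_sum] at h2
  rw [h2]
  rw [show ((m.totient : ℂ)) = ((m.totient : ℝ) : ℂ) by push_cast; rfl, ← Complex.ofReal_mul,
    Complex.ofReal_re]

variable (K) in
lemma re_QQ_sub_le_re_WW (χ : DirichletCharacter ℂ m) {s : ℝ} (hs : 1 < s) :
    (QQ K χ s).re - primeSum K 2 ≤ (WW K χ s).re := by
  have h1 := norm_WW_sub_QQ_le K χ hs
  have h2 : |(WW K χ s - QQ K χ s).re| ≤ ‖WW K χ s - QQ K χ s‖ := Complex.abs_re_le_norm _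
  have h3 := (abs_le.mp (h2.trans h1)).1
  rw [Complex.sub_re] at h3
  linarith

/-- an upper bound for `‖LI‖` near `1` for the characters with a limit -/
lemma DirichletInput.exists_bound_re_WW (hin : DirichletInput K a) :
    ∃ Lg : DirichletCharacter ℂ m → ℝ, (∀ χ, 0 ≤ Lg χ) ∧
      ∀ χ : DirichletCharacter ℂ m, χ (a : ZMod m) ≠ 1 →
        ∀ᶠ s in 𝓝[>] (1 : ℝ), (WW K χ s).re ≤ Lg χ := by
  classical
  refine ⟨fun χ => if h : χ (a : ZMod m) ≠ 1 then |Real.log (‖(hin.H3 χ h).choose‖ + 1)| else 0,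
    fun χ => ?_, fun χ hχ => ?_⟩
  · dsimp only; split_ifs
    · exact abs_nonneg _
    · exact le_rfl
  · simp only [dif_pos hχ]
    have hlim := (hin.H3 χ hχ).choose_spec
    set c := (hin.H3 χ hχ).choose with hc
    have hn : Tendsto (fun s : ℝ => ‖LI K χ s‖) (𝓝[>] 1) (𝓝 ‖c‖) := hlim.norm
    have hev : ∀ᶠ s in 𝓝[>] (1 : ℝ), ‖LI K χ s‖ < ‖c‖ + 1 :=
      hn.eventually (gt_mem_nhds (by linarith))
    filter_upwards [hev, eventually_Ioc] with s hs hs1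
    rw [norm_LI_eq K χ hs1.1] at hs
    have hpos : 0 < ‖c‖ + 1 := by positivity
    have := Real.log_lt_log (Real.exp_pos _) hs
    rw [Real.log_exp] at this
    exact this.le.trans (le_abs_self _)

/-- **Lower bound** for `Re WW χ₀` (hence `L(1, χ₀) ≠ 0`) when `χ₀ a ≠ 1`. -/
theorem DirichletInput.exists_le_re_WW (hin : DirichletInput K a) (χ₀ : DirichletCharacter ℂ m)
    (hχ₀ : χ₀ (a : ZMod m) ≠ 1) :
    ∃ C : ℝ, ∀ᶠ s in 𝓝[>] (1 : ℝ), -C ≤ (WW K χ₀ s).re := by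
  classical
  obtain ⟨C2, hC2⟩ := hin.H2
  obtain ⟨Cz, hCz⟩ := exists_log_zetaI_le K
  obtain ⟨Lg, hLg0, hLg⟩ := hin.exists_bound_re_WW
  set X : Finset (DirichletCharacter ℂ m) := Finset.univ with hX
  set A := X.filter (fun χ : DirichletCharacter ℂ m => χ (a : ZMod m) = 1) with hA
  set Ac := X.filter (fun χ : DirichletCharacter ℂ m => ¬ χ (a : ZMod m) = 1) with hAc
  set n := orderOf a with hn
  have hnpos : 0 < n := orderOf_pos a
  have hcount : (A.card : ℝ) * n = m.totient := by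
    exact_mod_cast card_filter_mul_orderOf m a
  set P2 := primeSum K 2 with hP2
  set MM := ∑ χ ∈ Ac, Lg χ with hMM
  have hχ₀Ac : χ₀ ∈ Ac := by simp [hAc, hX, hχ₀]
  have hev : ∀ᶠ s in 𝓝[>] (1 : ℝ), ∀ χ ∈ Ac, (WW K χ s).re ≤ Lg χ := by
    rw [eventually_all_finset]
    intro χ hχ
    exact hLg χ (Finset.mem_filter.mp hχ).2
  refine ⟨((m.totient : ℝ) * C2 + n * X.card * P2 + m.totient * Cz + n * MM) / n, ?_⟩
  filter_upwards [hev, eventually_Ioc] with s hs hs12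
  obtain ⟨hs1, hs2⟩ := hs12
  -- (i) lower bound for the total sum
  have h_i : (m.totient : ℝ) * TT K m 1 s - X.card * P2 ≤ ∑ χ ∈ X, (WW K χ s).re := by
    rw [← sum_re_QQ K hs1]
    have : ∑ χ ∈ X, ((QQ K χ s).re - P2) ≤ ∑ χ ∈ X, (WW K χ s).re :=
      Finset.sum_le_sum fun χ _ => re_QQ_sub_le_re_WW K χ hs1
    rw [Finset.sum_sub_distrib, Finset.sum_const, nsmul_eq_mul] at this
    exact this
  -- (ii) split
  have h_ii : ∑ χ ∈ X, (WW K χ s).re = ∑ χ ∈ A, (WW K χ s).re + ∑ χ ∈ Ac, (WW K χ s).re :=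
    (Finset.sum_filter_add_sum_filter_not X _ _).symm
  -- (iii)
  have h_iii : ∑ χ ∈ A, (WW K χ s).re ≤ A.card * (lp s + Cz) := by
    have : ∑ χ ∈ A, (WW K χ s).re ≤ ∑ χ ∈ A, (lp s + Cz) :=
      Finset.sum_le_sum fun χ _ => (re_WW_le_log_zetaI K χ hs1).trans (hCz s hs1 hs2)
    rwa [Finset.sum_const, nsmul_eq_mul] at this
  -- (iv)
  have h_iv : ∑ χ ∈ Ac, (WW K χ s).re ≤ (WW K χ₀ s).re + MM := by
    rw [← Finset.add_sum_erase Ac _ hχ₀Ac]
    have h1 : ∑ χ ∈ Ac.erase χ₀, (WW K χ s).re ≤ ∑ χ ∈ Ac.erase χ₀, Lg χ :=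
      Finset.sum_le_sum fun χ hχ => hs χ (Finset.mem_of_mem_erase hχ)
    have h2 : ∑ χ ∈ Ac.erase χ₀, Lg χ ≤ MM :=
      Finset.sum_le_sum_of_subset_of_nonneg (Finset.erase_subset _ _) fun χ _ _ => hLg0 χ
    linarith
  have hH2 := hC2 s hs1 hs2
  have hφ : (0 : ℝ) ≤ m.totient := Nat.cast_nonneg _
  have hn0 : (0 : ℝ) < n := by exact_mod_cast hnpos
  -- combine
  have key : -((m.totient : ℝ) * C2 + n * X.card * P2 + m.totient * Cz + n * MM) ≤
      n * (WW K χ₀ s).re := by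
    have e1 : (n : ℝ) * (A.card * (lp s + Cz)) = m.totient * (lp s + Cz) := by
      rw [← hcount]; ring
    have e2 : (m.totient : ℝ) * (lp s - C2) ≤ m.totient * (n * TT K m 1 s) :=
      mul_le_mul_of_nonneg_left hH2 hφ
    have e3 : (n : ℝ) * ∑ χ ∈ A, (WW K χ s).re ≤ n * (A.card * (lp s + Cz)) :=
      mul_le_mul_of_nonneg_left h_iii hn0.le
    have e4 : (n : ℝ) * ((m.totient : ℝ) * TT K m 1 s - X.card * P2) ≤
        n * (∑ χ ∈ A, (WW K χ s).re + ∑ χ ∈ Ac, (WW K χ s).re) := by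
      rw [← h_ii]; exact mul_le_mul_of_nonneg_left h_i hn0.le
    have e5 : (n : ℝ) * ∑ χ ∈ Ac, (WW K χ s).re ≤ n * ((WW K χ₀ s).re + MM) :=
      mul_le_mul_of_nonneg_left h_iv hn0.le
    nlinarith [e1, e2, e3, e4, e5]
  rw [← neg_div, div_le_iff₀ hn0]
  linarith

end

end Fermat.Agent.Lib.Cheb.H521
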