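import Fermat.Agent.Lib.Cheb.H521.Core2

/-!
# Dirichlet's argument over a number field: conclusion

From `DirichletInput K a`: `φ(m) * ∑_{N𝔭 ≡ a} N𝔭^(-s) ≥ log (1/(s-1)) - C` eventually as `s → 1⁺`,
and (given that the primes of degree `≥ 2` have a convergent sum of `N𝔭⁻¹`) there is a prime of
degree one, of norm outside any finite set, with `N𝔭 ≡ a mod m`.
-/

set_option autoImplicit false

namespace Fermat.Agent.Lib.Cheb.H521

open IsDedekindDomain Filter Topology NumberField Ideal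
open Fermat.Agent.Lib.Cheb.H761

set_option linter.unusedSectionVars false
set_option linter.unusedVariables false

noncomputable section

variable {K : Type*} [Field K] [NumberField K] {m : ℕ} [NeZero m] {a : (ZMod m)ˣ}

/-- `QQ K χ₀` is bounded near `1⁺` when `χ₀ a ≠ 1`. -/
theorem DirichletInput.exists_norm_QQ_le (hin : DirichletInput K a)
    (χ₀ : DirichletCharacter ℂ m) (hχ₀ : χ₀ (a : ZMod m) ≠ 1) :
    ∃ B : ℝ, ∀ᶠ s in 𝓝[>] (1 : ℝ), ‖QQ K χ₀ s‖ ≤ B := by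
  obtain ⟨c, hc⟩ := hin.H3 χ₀ hχ₀
  obtain ⟨C, hC⟩ := hin.exists_le_re_WW χ₀ hχ₀
  -- the limit is nonzero
  have hcne : c ≠ 0 := by
    have hn : Tendsto (fun s : ℝ => ‖LI K χ₀ s‖) (𝓝[>] 1) (𝓝 ‖c‖) := hc.norm
    have hge : ∀ᶠ s in 𝓝[>] (1 : ℝ), Real.exp (-C) ≤ ‖LI K χ₀ s‖ := by
      filter_upwards [hC, eventually_Ioc] with s hs hs1
      rw [norm_LI_eq K χ₀ hs1.1]
      exact Real.exp_le_exp.mpr hs
    have := ge_of_tendsto hn hge
    intro h0
    rw [h0, norm_zero] at this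
    exact absurd this (not_le.mpr (Real.exp_pos _))
  -- branch lemma
  have hexp : Tendsto (fun s : ℝ => Complex.exp (WW K χ₀ s)) (𝓝[>] 1) (𝓝 c) := by
    refine hc.congr' ?_
    filter_upwards [self_mem_nhdsWithin] with s hs
    exact (exp_WW K χ₀ (Set.mem_Ioi.mp hs)).symm
  obtain ⟨δ, hδ, B, hB⟩ := bounded_of_exp_tendsto (continuousOn_WW K χ₀) hcne hexp
  refine ⟨B + primeSum K 2, ?_⟩
  filter_upwards [Ioo_mem_nhdsGT (show (1 : ℝ) < 1 + δ by linarith)] with s hs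
  have h1 := hB s hs.1 hs.2
  have h2 := norm_WW_sub_QQ_le K χ₀ hs.1
  calc ‖QQ K χ₀ s‖ = ‖WW K χ₀ s - (WW K χ₀ s - QQ K χ₀ s)‖ := by rw [sub_sub_cancel]
    _ ≤ ‖WW K χ₀ s‖ + ‖WW K χ₀ s - QQ K χ₀ s‖ := norm_sub_le _ _
    _ ≤ B + primeSum K 2 := add_le_add h1 h2

/-- **Main estimate**: `φ(m) * ∑_{N𝔭 ≡ a} N𝔭^(-s) ≥ log (1/(s-1)) - C` eventually. -/
theorem DirichletInput.exists_le_totient_mul_TT (hin : DirichletInput K a) :
    ∃ C : ℝ, ∀ᶠ s in 𝓝[>] (1 : ℝ), lp s - C ≤ (m.totient : ℝ) * TT K m (a : ZMod m) s := by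
  classical
  obtain ⟨Cp, hCp⟩ := exists_le_primeSum K
  set X : Finset (DirichletCharacter ℂ m) := Finset.univ with hX
  set A := X.filter (fun χ : DirichletCharacter ℂ m => χ (a : ZMod m) = 1) with hA
  set Ac := X.filter (fun χ : DirichletCharacter ℂ m => ¬ χ (a : ZMod m) = 1) with hAc
  -- bounds for the nontrivial characters
  have hB : ∀ χ : DirichletCharacter ℂ m, ∃ B : ℝ, χ ∈ Ac →
      ∀ᶠ s in 𝓝[>] (1 : ℝ), ‖QQ K χ s‖ ≤ B := by
    intro χ
    by_cases h : χ (a : ZMod m) = 1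
    · exact ⟨0, fun hχ => absurd h (Finset.mem_filter.mp hχ).2⟩
    · obtain ⟨B, hB⟩ := hin.exists_norm_QQ_le χ h
      exact ⟨B, fun _ => hB⟩
  choose Bf hBf using hB
  have hev : ∀ᶠ s in 𝓝[>] (1 : ℝ), ∀ χ ∈ Ac, ‖QQ K χ s‖ ≤ Bf χ := by
    rw [eventually_all_finset]
    exact fun χ hχ => hBf χ hχ
  set cE : ℝ := ((finite_nonunit K m).toFinset.card : ℝ) with hcE
  set BB := ∑ χ ∈ Ac, Bf χ with hBB
  have hAcard : 1 ≤ A.card := by
    apply Finset.card_pos.mpr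
    exact ⟨1, by simp [hA, hX]⟩
  refine ⟨Cp + A.card * cE + BB, ?_⟩
  filter_upwards [hev, eventually_Ioc] with s hs hs12
  obtain ⟨hs1, hs2⟩ := hs12
  have horth := sum_inv_mul_QQ K m (a := (a : ZMod m)) a.isUnit hs1
  have hre := congrArg Complex.re horth
  rw [Complex.re_sum] at hre
  rw [show ((m.totient : ℂ)) = ((m.totient : ℝ) : ℂ) by push_cast; rfl, ← Complex.ofReal_mul,
    Complex.ofReal_re] at hre
  rw [← hre]
  have hsplit : ∑ χ : DirichletCharacter ℂ m, (χ (a : ZMod m)⁻¹ * QQ K χ s).re =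
      ∑ χ ∈ A, (χ (a : ZMod m)⁻¹ * QQ K χ s).re + ∑ χ ∈ Ac, (χ (a : ZMod m)⁻¹ * QQ K χ s).re :=
    (Finset.sum_filter_add_sum_filter_not X _ _).symm
  rw [hsplit]
  have hP := hCp s hs1 hs2
  have hP0 : 0 ≤ primeSum K s := primeSum_nonneg K s
  -- trivial part
  have hAsum : A.card * (primeSum K s - cE) ≤ ∑ χ ∈ A, (χ (a : ZMod m)⁻¹ * QQ K χ s).re := by
    have : ∑ χ ∈ A, (primeSum K s - cE) ≤ ∑ χ ∈ A, (χ (a : ZMod m)⁻¹ * QQ K χ s).re := by
      refine Finset.sum_le_sum fun χ hχ => ?_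
      have hχa : χ (a : ZMod m) = 1 := (Finset.mem_filter.mp hχ).2
      have hinv : χ (a : ZMod m)⁻¹ = 1 := by
        have h1 : χ (a : ZMod m)⁻¹ * χ (a : ZMod m) = 1 := by
          rw [← map_mul, ZMod.inv_mul_of_unit _ a.isUnit, map_one]
        rwa [hχa, mul_one] at h1
      rw [hinv, one_mul]
      exact le_re_QQ_of_trivial K χ (hin.chi_eq_one χ hχa) hs1
    rwa [Finset.sum_const, nsmul_eq_mul] at this
  -- nontrivial part
  have hAcsum : -BB ≤ ∑ χ ∈ Ac, (χ (a : ZMod m)⁻¹ * QQ K χ s).re := by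
    rw [hBB, ← Finset.sum_neg_distrib]
    refine Finset.sum_le_sum fun χ hχ => ?_
    have h1 : |(χ (a : ZMod m)⁻¹ * QQ K χ s).re| ≤ ‖χ (a : ZMod m)⁻¹ * QQ K χ s‖ :=
      Complex.abs_re_le_norm _
    have h2 : ‖χ (a : ZMod m)⁻¹ * QQ K χ s‖ ≤ Bf χ := by
      rw [norm_mul]
      calc ‖χ (a : ZMod m)⁻¹‖ * ‖QQ K χ s‖ ≤ 1 * ‖QQ K χ s‖ := by
            gcongr
            exact DirichletCharacter.norm_le_one χ _
        _ = ‖QQ K χ s‖ := one_mul _
        _ ≤ Bf χ := hs χ hχ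
    exact (abs_le.mp (h1.trans h2)).1
  have hA1 : (1 : ℝ) ≤ A.card := by exact_mod_cast hAcard
  have hcE0 : 0 ≤ cE := Nat.cast_nonneg _
  have : primeSum K s - A.card * cE ≤ A.card * (primeSum K s - cE) := by nlinarith
  linarith

/-- the set of primes with norm in a given finite set is finite -/
lemma finite_absNorm_mem (S : Finset ℕ) :
    {𝔭 : HeightOneSpectrum (𝓞 K) | absNorm 𝔭.asIdeal ∈ S}.Finite := by
  have h : {I : Ideal (𝓞 K) | absNorm I ∈ S}.Finite := by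
    have : {I : Ideal (𝓞 K) | absNorm I ∈ S} = ⋃ n ∈ S, {I : Ideal (𝓞 K) | absNorm I = n} := by
      ext I; simp
    rw [this]
    exact Set.Finite.biUnion S.finite_toSet fun n _ => Ideal.finite_setOfPred_absNorm_eq n
  exact Set.Finite.of_injOn (f := fun 𝔭 : HeightOneSpectrum (𝓞 K) => 𝔭.asIdeal)
    (fun 𝔭 h𝔭 => h𝔭) (fun 𝔭 _ 𝔮 _ hpq => HeightOneSpectrum.ext hpq) h

/-- **Dirichlet's theorem for norm residues** (qualitative): a prime of degree one with norm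
outside `S` and `≡ a mod m`. -/
theorem DirichletInput.exists_prime (hin : DirichletInput K a)
    (hdeg : Summable (fun 𝔭 : HeightOneSpectrum (𝓞 K) =>
      if (absNorm 𝔭.asIdeal).Prime then 0 else normPow K 1 𝔭.asIdeal))
    (S : Finset ℕ) :
    ∃ 𝔭 : HeightOneSpectrum (𝓞 K), (absNorm 𝔭.asIdeal).Prime ∧ absNorm 𝔭.asIdeal ∉ S ∧
      ((absNorm 𝔭.asIdeal : ℕ) : ZMod m) = (a : ZMod m) := by
  classical
  by_contra hcon
  push Not at hcon
  obtain ⟨C, hC⟩ := hin.exists_le_totient_mul_TT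
  set ES := (finite_absNorm_mem (K := K) S).toFinset with hES
  set D2 := ∑' 𝔭 : HeightOneSpectrum (𝓞 K),
      (if (absNorm 𝔭.asIdeal).Prime then 0 else normPow K 1 𝔭.asIdeal) with hD2
  have hsumS : Summable (fun 𝔭 : HeightOneSpectrum (𝓞 K) => if 𝔭 ∈ ES then (1 : ℝ) else 0) :=
    summable_of_hasFiniteSupport ((Finset.finite_toSet ES).subset fun 𝔭 h𝔭 => by
      by_contra hcon'
      simp only [Function.mem_support, ne_eq] at h𝔭
      exact h𝔭 (if_neg hcon'))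
  have hSle : ∑' 𝔭 : HeightOneSpectrum (𝓞 K), (if 𝔭 ∈ ES then (1 : ℝ) else 0) = ES.card := by
    rw [tsum_eq_sum (s := ES) (fun 𝔭 h𝔭 => if_neg h𝔭)]
    simp
  -- upper bound for `TT a`
  have hTT : ∀ s : ℝ, 1 < s → TT K m (a : ZMod m) s ≤ D2 + ES.card := by
    intro s hs
    rw [← hSle, hD2, ← hdeg.tsum_add hsumS]
    refine (summable_TT K m _ hs).tsum_le_tsum (fun 𝔭 => ?_) (hdeg.add hsumS)
    by_cases h1 : ((absNorm 𝔭.asIdeal : ℕ) : ZMod m) = (a : ZMod m)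
    · rw [if_pos h1]
      by_cases h2 : (absNorm 𝔭.asIdeal).Prime
      · have h3 : absNorm 𝔭.asIdeal ∈ S := by
          by_contra h3
          exact hcon 𝔭 h2 h3 h1
        have h4 : 𝔭 ∈ ES := by simpa [hES] using h3
        rw [if_pos h2, if_pos h4, zero_add]
        exact (normPow_le_half K hs.le 𝔭).trans (by norm_num)
      · rw [if_neg h2]
        have := normPow_anti K hs.le 𝔭.asIdeal (by norm_num)
        have h5 : (0 : ℝ) ≤ if 𝔭 ∈ ES then (1 : ℝ) else 0 := by split_ifs <;> norm_num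
        linarith
    · rw [if_neg h1]
      have h5 : (0 : ℝ) ≤ if 𝔭 ∈ ES then (1 : ℝ) else 0 := by split_ifs <;> norm_num
      have h6 : (0 : ℝ) ≤ if (absNorm 𝔭.asIdeal).Prime then 0 else normPow K 1 𝔭.asIdeal := by
        split_ifs
        · exact le_rfl
        · exact normPow_nonneg K 1 _
      linarith
  have hbig : ∀ᶠ s in 𝓝[>] (1 : ℝ), C + (m.totient : ℝ) * (D2 + ES.card) < lp s :=
    tendsto_lp.eventually_gt_atTop _
  obtain ⟨s, hs1, hs2, hs3⟩ := (hC.and (hbig.and eventually_Ioc)).exists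
  have h7 := hTT s hs3.1
  have hφ : (0 : ℝ) ≤ m.totient := Nat.cast_nonneg _
  have h8 : (m.totient : ℝ) * TT K m (a : ZMod m) s ≤ m.totient * (D2 + ES.card) :=
    mul_le_mul_of_nonneg_left h7 hφ
  linarith

end

end Fermat.Agent.Lib.Cheb.H521
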