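import Fermat.Agent.Lib.Cheb.H521.Deg2

/-!
# CHEB, Tier 2, piece CYC: the cyclotomic case of Chebotarev's theorem

`cyc : Spec.DirichletLimitStatement → Spec.FrobStatement → Spec.FrobFiniteStatement →
  Spec.CycStatement`.

Inputs: (AN) limits of the `L`-series of norm characters, (D) trivial inertia outside a finite set,
(M) the finite-level Frobenius density theorem (used only to know that the norm residues of the
primes of the fixed field `F` of `⟨g⟩` generate the image of `⟨g⟩` in `(ℤ/m)ˣ`).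
The prime ideal theorem `∑_𝔭 N𝔭^(-s) = log (1/(s-1)) + O(1)` is taken from `H761` (on main).
-/

set_option autoImplicit false
set_option linter.style.haveILetI false

namespace Fermat.Agent.Lib.Cheb.H521

open NumberField IsDedekindDomain Ideal Filter Topology
open Fermat.Agent.Lib.Cheb.H761
open scoped Pointwise

set_option linter.unusedSectionVars false
set_option linter.unusedVariables false

noncomputable section

variable {L : Type} [Field L] [NumberField L] [IsGalois ℚ L] (g : L ≃ₐ[ℚ] L)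
  {m : ℕ} [NeZero m] {ζ : L} (hζ : IsPrimitiveRoot ζ m)

/-- The hypotheses of Dirichlet's argument hold for the fixed field of `⟨g⟩`. -/
theorem dirichletInput_Fg (hg : ∀ k : ℕ, (g ^ k) ζ = ζ → g ^ k = 1)
    (hAN : Spec.DirichletLimitStatement) (hM : Spec.FrobFiniteStatement) :
    DirichletInput (Fg L g) (aOf g hζ) where
  H1 := norm_mem_powers g hζ
  H2 := by
    obtain ⟨CL, hCL⟩ := exists_le_primeSum L
    refine ⟨CL + orderOf g * (primeSum (Fg L g) 2 +
      ((finite_nonunit (Fg L g) m).toFinset.card : ℝ)), fun s hs1 hs2 => ?_⟩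
    have h1 := primeSum_le_mul (K := Fg L g) hζ (orderOf g) (card_fiber_le g) hs1
    have h2 := hCL s hs1 hs2
    rw [orderOf_aOf g hζ hg]
    linarith
  H3 := by
    intro χ hχ
    obtain ⟨𝔮₀, p₀, j, hp₀, hN, hunit, haj⟩ := exists_norm_witness g hζ hM
    have hχp1 : χ ((p₀ : ℕ) : ZMod m) ≠ 1 := by
      intro h1
      apply hχ
      rw [haj, map_pow, h1, one_pow]
    have hχp0 : χ ((p₀ : ℕ) : ZMod m) ≠ 0 := by
      intro h0
      have h1 : χ ((p₀ : ℕ) : ZMod m) * χ (((p₀ : ℕ) : ZMod m)⁻¹) = 1 := by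
        rw [← map_mul, ZMod.mul_inv_of_unit _ hunit, map_one]
      rw [h0, zero_mul] at h1
      exact zero_ne_one h1
    obtain ⟨c, hc⟩ := hAN (Fg L g) m χ ⟨𝔮₀.asIdeal, by rw [hN]; exact hχp0, by rw [hN]; exact hχp1⟩
    refine ⟨c, hc.congr' ?_⟩
    filter_upwards [self_mem_nhdsWithin] with s hs
    exact (LI_eq_LSeries (Fg L g) χ (Set.mem_Ioi.mp hs)).symm

/-- **CYC**: the cyclotomic case of the qualitative Chebotarev theorem. -/
theorem cyc (hAN : Spec.DirichletLimitStatement) (hD : Spec.FrobStatement)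
    (hM : Spec.FrobFiniteStatement) : Spec.CycStatement := by
  intro L _ _ _ m ζ hm hζ g hg S
  haveI : NeZero m := ⟨hm.ne'⟩
  have hin := dirichletInput_Fg g hζ hg hAN hM
  obtain ⟨B, hB⟩ := hD L
  obtain ⟨𝔮, hprime, hnotin, hmod⟩ := hin.exists_prime (summable_deg_ge_two g) (S ∪ B)
  obtain ⟨P, hpP, hfrob⟩ := isArithFrobAt_of_norm g hζ hg 𝔮 hprime rfl hmod
  have hS : absNorm 𝔮.asIdeal ∉ S := fun h => hnotin (Finset.mem_union_left _ h)
  have hBn : absNorm 𝔮.asIdeal ∉ B := fun h => hnotin (Finset.mem_union_right _ h)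
  exact ⟨absNorm 𝔮.asIdeal, P.asIdeal, hprime, hS, P.isPrime, hpP,
    (hB _ hprime hBn P.asIdeal P.isPrime hpP).1, hfrob⟩

end

end Fermat.Agent.Lib.Cheb.H521
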