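import Fermat.Agent.Lib.Cheb.H521.Alg6

/-!
# Primes of degree `≥ 2` have a convergent sum of `N𝔮⁻¹`

For the fixed field `F = Fg L g` of a Galois number field `L/ℚ`.
-/

set_option autoImplicit false
set_option linter.style.haveILetI false

namespace Fermat.Agent.Lib.Cheb.H521

open NumberField IsDedekindDomain Ideal Filter Topology
open Fermat.Agent.Lib.Cheb.H761
open scoped Pointwise

set_option linter.unusedSectionVars false
set_option linter.unusedVariables false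

noncomputable section

variable {L : Type} [Field L] [NumberField L] [IsGalois ℚ L] (g : L ≃ₐ[ℚ] L)

/-- the prime number below a prime of a number field -/
def primeNat {K : Type*} [Field K] [NumberField K] (𝔮 : HeightOneSpectrum (𝓞 K)) : ℕ :=
  absNorm (𝔮.asIdeal.under ℤ)

lemma primeNat_prime {K : Type*} [Field K] [NumberField K] (𝔮 : HeightOneSpectrum (𝓞 K)) :
    (primeNat 𝔮).Prime := by
  haveI : NeZero 𝔮.asIdeal := ⟨𝔮.ne_bot⟩
  exact Nat.absNorm_under_prime 𝔮.asIdeal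

/-- `N 𝔮 = p ^ f`, `f ≥ 1`, `p` the prime number below `𝔮`. -/
lemma absNorm_eq_primeNat_pow {K : Type*} [Field K] [NumberField K]
    (𝔮 : HeightOneSpectrum (𝓞 K)) :
    ∃ f : ℕ, 1 ≤ f ∧ absNorm 𝔮.asIdeal = primeNat 𝔮 ^ f := by
  have hp := primeNat_prime 𝔮
  haveI : Fact (primeNat 𝔮).Prime := ⟨hp⟩
  haveI : 𝔮.asIdeal.LiesOver (Ideal.span {((primeNat 𝔮 : ℕ) : ℤ)}) :=
    Int.liesOver_span_absNorm 𝔮.asIdeal
  haveI : (Ideal.span {((primeNat 𝔮 : ℕ) : ℤ)}).IsMaximal := inferInstance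
  refine ⟨(Ideal.span {((primeNat 𝔮 : ℕ) : ℤ)}).inertiaDeg' 𝔮.asIdeal, ?_, ?_⟩
  · exact Nat.one_le_iff_ne_zero.mpr (Ideal.inertiaDeg'_ne_zero _ _)
  · exact Ideal.absNorm_eq_pow_inertiaDeg' 𝔮.asIdeal hp

/-- At most `#Gal(L/ℚ)` primes of `F` lie above a prime number. -/
theorem card_fiber_primeNat_le (p : ℕ) (t : Finset (HeightOneSpectrum (𝓞 (Fg L g))))
    (ht : ∀ 𝔮 ∈ t, primeNat 𝔮 = p) : t.card ≤ Nat.card (L ≃ₐ[ℚ] L) := by
  classical
  haveI hGG := isGaloisGroup_int_rat L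
  haveI : Algebra.IsInvariant ℤ (𝓞 L) (L ≃ₐ[ℚ] L) := hGG.isInvariant
  haveI : SMulCommClass (L ≃ₐ[ℚ] L) ℤ (𝓞 L) := hGG.commutes
  -- choose a prime of `L` above each prime of `F`
  choose lift hlift using fun 𝔮 : HeightOneSpectrum (𝓞 (Fg L g)) =>
    exists_primeUnder_eq (L := L) 𝔮
  have hinj : Function.Injective (fun 𝔮 : HeightOneSpectrum (𝓞 (Fg L g)) => (lift 𝔮).asIdeal) := by
    intro 𝔮 𝔮' h
    have h1 : lift 𝔮 = lift 𝔮' := HeightOneSpectrum.ext h
    rw [← hlift 𝔮, ← hlift 𝔮', h1]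
  have h1 := card_le_of_under_eq (R := ℤ) (S := 𝓞 L) (G := (L ≃ₐ[ℚ] L))
    (t.image fun 𝔮 => (lift 𝔮).asIdeal)
    (fun I hI => by
      obtain ⟨𝔮, -, rfl⟩ := Finset.mem_image.mp hI
      exact (lift 𝔮).isPrime)
    (Ideal.span {(p : ℤ)})
    (fun I hI => by
      obtain ⟨𝔮, h𝔮, rfl⟩ := Finset.mem_image.mp hI
      have e1 : (lift 𝔮).asIdeal.under ℤ = 𝔮.asIdeal.under ℤ := by
        conv_rhs => rw [← hlift 𝔮, primeUnder_asIdeal, Ideal.under_under]
      rw [e1, ← ht 𝔮 h𝔮, primeNat, Int.ideal_span_absNorm_eq_self])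
  rwa [Finset.card_image_of_injective _ hinj] at h1

/-- The primes of degree `≥ 2` of `F` have a convergent sum of `N𝔮⁻¹`. -/
theorem summable_deg_ge_two :
    Summable (fun 𝔮 : HeightOneSpectrum (𝓞 (Fg L g)) =>
      if (absNorm 𝔮.asIdeal).Prime then 0 else normPow (Fg L g) 1 𝔮.asIdeal) := by
  have hs : Summable (fun n : ℕ => 1 / (n : ℝ) ^ 2) :=
    Real.summable_one_div_nat_pow.mpr one_lt_two
  refine (summable_of_le_comp_of_card_fiber_le (fun 𝔮 : HeightOneSpectrum (𝓞 (Fg L g)) =>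
    primeNat 𝔮) (Nat.card (L ≃ₐ[ℚ] L)) (card_fiber_primeNat_le g)
    (fun n => by positivity) hs (fun 𝔮 => ?_) (fun 𝔮 => ?_)).1
  · split_ifs
    · exact le_rfl
    · exact normPow_nonneg _ _ _
  · have hp := primeNat_prime 𝔮
    have hp2 : (2 : ℝ) ≤ primeNat 𝔮 := by exact_mod_cast hp.two_le
    split_ifs with hprime
    · positivity
    · obtain ⟨f, hf1, hf⟩ := absNorm_eq_primeNat_pow 𝔮
      have hf2 : 2 ≤ f := by
        rcases Nat.eq_or_lt_of_le hf1 with h | h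
        · exfalso
          rw [← h, pow_one] at hf
          exact hprime (hf ▸ hp)
        · exact h
      simp only [normPow, hf]
      push_cast
      rw [Real.rpow_neg (by positivity), Real.rpow_one, one_div]
      apply inv_anti₀ (by positivity)
      exact pow_le_pow_right₀ (by linarith) hf2

end

end Fermat.Agent.Lib.Cheb.H521
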