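import Fermat.Agent.Lib.Cheb.H761.ZetaEuler

/-!
# `L`-series of norm characters over a number field (real `s > 1`)

For a number field `K`, a Dirichlet character `χ` mod `m` and real `s > 1`:
* `chiTerm K χ s I = χ(N I) N(I)^(-s)`, completely multiplicative, summable;
* `LI K χ s = ∑_I χ(N I) N(I)^(-s)`, equal to the `LSeries` of `n ↦ χ(n) · #{I | N I = n}`;
* `WW K χ s = ∑_𝔭 -log (1 - χ(N𝔭) N𝔭^(-s))` with `exp (WW K χ s) = LI K χ s`;
* `QQ K χ s = ∑_𝔭 χ(N𝔭) N𝔭^(-s)` with `‖WW - QQ‖ ≤ primeSum K 2`;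
* `WW K χ` is continuous on `(1, ∞)`.
-/

set_option autoImplicit false

namespace Fermat.Agent.Lib.Cheb.H521

open IsDedekindDomain Filter Topology NumberField Ideal
open Fermat.Agent.Lib.Cheb.H761

set_option linter.unusedSectionVars false
set_option linter.unusedVariables false

noncomputable section

variable (K : Type*) [Field K] [NumberField K] {m : ℕ} [NeZero m] (χ : DirichletCharacter ℂ m)

/-- `χ(N I) · N(I)^(-s)` -/
def chiTerm (s : ℝ) (I : Ideal (𝓞 K)) : ℂ :=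
  χ ((absNorm I : ℕ) : ZMod m) * ((normPow K s I : ℝ) : ℂ)

lemma norm_chiTerm_le (s : ℝ) (I : Ideal (𝓞 K)) : ‖chiTerm K χ s I‖ ≤ normPow K s I := by
  rw [chiTerm, norm_mul, Complex.norm_real, Real.norm_of_nonneg (normPow_nonneg K s I)]
  calc ‖χ ((absNorm I : ℕ) : ZMod m)‖ * normPow K s I ≤ 1 * normPow K s I := by
        gcongr
        · exact normPow_nonneg K s I
        · exact DirichletCharacter.norm_le_one χ _
    _ = normPow K s I := one_mul _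

lemma chiTerm_mul (s : ℝ) (I J : Ideal (𝓞 K)) :
    chiTerm K χ s (I * J) = chiTerm K χ s I * chiTerm K χ s J := by
  simp only [chiTerm, map_mul, Nat.cast_mul, normPow_mul, Complex.ofReal_mul]
  ring

lemma chiTerm_top (s : ℝ) : chiTerm K χ s ⊤ = 1 := by
  simp [chiTerm, normPow_top]

lemma chiTerm_bot {s : ℝ} (hs : s ≠ 0) : chiTerm K χ s ⊥ = 0 := by
  simp [chiTerm, normPow_bot K hs]

theorem summable_chiTerm {s : ℝ} (hs : 1 < s) : Summable (chiTerm K χ s) :=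
  Summable.of_norm_bounded (summable_normPow K hs) (norm_chiTerm_le K χ s)

/-- `L_K(s, χ ∘ N)` as a sum over ideals. -/
def LI (s : ℝ) : ℂ := ∑' I : Ideal (𝓞 K), chiTerm K χ s I

theorem norm_LI_le {s : ℝ} (hs : 1 < s) : ‖LI K χ s‖ ≤ zetaI K s := by
  refine tsum_of_norm_bounded (summable_normPow K hs).hasSum (norm_chiTerm_le K χ s)

/-- The sum of `χ(N I) N(I)^(-s)` over all ideals of norm `n`. -/
lemma tsum_fiber_chi (s : ℝ) (n : ℕ) :
    ∑' I : {I : Ideal (𝓞 K) // absNorm I = n}, chiTerm K χ s I.1 =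
      χ (n : ZMod m) * (((Nat.card {I : Ideal (𝓞 K) // absNorm I = n} : ℝ) * (n : ℝ) ^ (-s) : ℝ) : ℂ) := by
  have hfin : Finite {I : Ideal (𝓞 K) // absNorm I = n} :=
    (Ideal.finite_setOfPred_absNorm_eq n).to_subtype
  have : Fintype {I : Ideal (𝓞 K) // absNorm I = n} := Fintype.ofFinite _
  rw [tsum_fintype]
  have : ∀ I : {I : Ideal (𝓞 K) // absNorm I = n},
      chiTerm K χ s I.1 = χ (n : ZMod m) * (((n : ℝ) ^ (-s) : ℝ) : ℂ) := by
    intro I
    simp only [chiTerm, normPow, I.2]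
  simp only [this, Finset.sum_const, Finset.card_univ, nsmul_eq_mul, Nat.card_eq_fintype_card]
  push_cast
  ring

lemma term_chi_eq {s : ℝ} (hs : 1 < s) (n : ℕ) :
    LSeries.term (fun n ↦ χ (n : ZMod m) * (Nat.card {I : Ideal (𝓞 K) // absNorm I = n} : ℂ))
      (s : ℂ) n =
      χ (n : ZMod m) *
        (((Nat.card {I : Ideal (𝓞 K) // absNorm I = n} : ℝ) * (n : ℝ) ^ (-s) : ℝ) : ℂ) := by
  rcases eq_or_ne n 0 with rfl | hn
  · have : (0 : ℝ) ^ (-s) = 0 := Real.zero_rpow (by linarith)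
    simp [this]
  · rw [LSeries.term_of_ne_zero hn, Complex.ofReal_mul,
      Complex.ofReal_cpow (Nat.cast_nonneg n), Complex.ofReal_neg, Complex.cpow_neg]
    simp [div_eq_mul_inv, mul_assoc]

/-- `LI` is the `LSeries` of `n ↦ χ(n) · #{I | N I = n}`. -/
theorem LI_eq_LSeries {s : ℝ} (hs : 1 < s) :
    LI K χ s =
      LSeries (fun n ↦ χ (n : ZMod m) * (Nat.card {I : Ideal (𝓞 K) // absNorm I = n} : ℂ))
        (s : ℂ) := by
  have hsum := summable_chiTerm K χ hs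
  have hsum' : Summable (fun x : Σ n : ℕ, {I : Ideal (𝓞 K) // absNorm I = n} =>
      chiTerm K χ s x.2.1) :=
    ((Equiv.sigmaFiberEquiv (fun I : Ideal (𝓞 K) => absNorm I)).summable_iff
      (f := chiTerm K χ s)).mpr hsum
  calc LI K χ s
      = ∑' x : Σ n : ℕ, {I : Ideal (𝓞 K) // absNorm I = n}, chiTerm K χ s x.2.1 :=
        ((Equiv.sigmaFiberEquiv (fun I : Ideal (𝓞 K) => absNorm I)).tsum_eq
          (chiTerm K χ s)).symm
    _ = ∑' n : ℕ, ∑' I : {I : Ideal (𝓞 K) // absNorm I = n}, chiTerm K χ s I.1 :=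
        hsum'.tsum_sigma
    _ = _ := by
        rw [LSeries]
        exact tsum_congr fun n => by rw [tsum_fiber_chi, term_chi_eq K χ hs]

/-! ### The prime sums -/

/-- `χ(N𝔭) N𝔭^(-s)` has norm at most `1/2`. -/
lemma norm_chiTerm_prime_le_half {s : ℝ} (hs : 1 ≤ s) (𝔭 : HeightOneSpectrum (𝓞 K)) :
    ‖chiTerm K χ s 𝔭.asIdeal‖ ≤ 1 / 2 :=
  (norm_chiTerm_le K χ s _).trans (normPow_le_half K hs 𝔭)

theorem summable_chiTerm_prime {s : ℝ} (hs : 1 < s) :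
    Summable (fun 𝔭 : HeightOneSpectrum (𝓞 K) => chiTerm K χ s 𝔭.asIdeal) :=
  (summable_chiTerm K χ hs).comp_injective (asIdeal_injective K)

/-- `∑_𝔭 χ(N𝔭) N𝔭^(-s)` -/
def QQ (s : ℝ) : ℂ := ∑' 𝔭 : HeightOneSpectrum (𝓞 K), chiTerm K χ s 𝔭.asIdeal

/-- `∑_𝔭 -log (1 - χ(N𝔭) N𝔭^(-s))` -/
def WW (s : ℝ) : ℂ :=
  ∑' 𝔭 : HeightOneSpectrum (𝓞 K), -Complex.log (1 - chiTerm K χ s 𝔭.asIdeal)

lemma one_sub_chiTerm_ne_zero {s : ℝ} (hs : 1 ≤ s) (𝔭 : HeightOneSpectrum (𝓞 K)) :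
    1 - chiTerm K χ s 𝔭.asIdeal ≠ 0 := by
  intro h
  have h1 : chiTerm K χ s 𝔭.asIdeal = 1 := (sub_eq_zero.mp h).symm
  have := norm_chiTerm_prime_le_half K χ hs 𝔭
  rw [h1, norm_one] at this
  norm_num at this

theorem summable_log {s : ℝ} (hs : 1 < s) :
    Summable (fun 𝔭 : HeightOneSpectrum (𝓞 K) =>
      Complex.log (1 - chiTerm K χ s 𝔭.asIdeal)) :=
  (summable_chiTerm_prime K χ hs).clog_one_sub

/-- the sum over nonzero ideals is `LI` -/
lemma tsum_sieveSet_empty_chi {s : ℝ} (hs : 1 < s) :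
    ∑' I : sieveSet (∅ : Set (HeightOneSpectrum (𝓞 K))), chiTerm K χ s I = LI K χ s := by
  have hsum := summable_chiTerm K χ hs
  have h : sieveSet (∅ : Set (HeightOneSpectrum (𝓞 K))) = ({⊥} : Set (Ideal (𝓞 K)))ᶜ := by
    ext I
    simp [mem_sieveSet_empty]
  rw [tsum_congr_set_coe _ h, LI,
    ← (hsum.subtype _).tsum_add_tsum_compl (s := ({⊥} : Set (Ideal (𝓞 K)))) (hsum.subtype _),
    tsum_singleton (⊥ : Ideal (𝓞 K)) (chiTerm K χ s), chiTerm_bot K χ (by linarith), zero_add]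

/-- **Euler product in logarithmic form**: `exp (WW s) = LI s`. -/
theorem exp_WW {s : ℝ} (hs : 1 < s) : Complex.exp (WW K χ s) = LI K χ s := by
  have hprod := hasProd_one_sub (summable_chiTerm K χ hs) (chiTerm_mul K χ s) (chiTerm_top K χ s)
  rw [tsum_sieveSet_empty_chi K χ hs] at hprod
  have hexp := Complex.cexp_tsum_eq_tprod (one_sub_chiTerm_ne_zero K χ hs.le) (summable_log K χ hs)
  rw [hprod.tprod_eq] at hexp
  rw [WW, tsum_neg, Complex.exp_neg, hexp, inv_inv]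

theorem LI_ne_zero {s : ℝ} (hs : 1 < s) : LI K χ s ≠ 0 := by
  rw [← exp_WW K χ hs]
  exact Complex.exp_ne_zero _

theorem norm_LI_eq {s : ℝ} (hs : 1 < s) : ‖LI K χ s‖ = Real.exp (WW K χ s).re := by
  rw [← exp_WW K χ hs, Complex.norm_exp]

lemma norm_neg_log_sub_le {z : ℂ} (hz : ‖z‖ ≤ 1 / 2) :
    ‖-Complex.log (1 - z) - z‖ ≤ ‖z‖ ^ 2 := by
  have h1 : ‖-z‖ < 1 := by rw [norm_neg]; linarith
  have h := Complex.norm_log_one_add_sub_self_le h1
  rw [norm_neg] at h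
  have h2 : -Complex.log (1 - z) - z = -(Complex.log (1 + -z) - -z) := by
    rw [← sub_eq_add_neg]; ring
  rw [h2, norm_neg]
  refine h.trans ?_
  have h3 : (1 - ‖z‖)⁻¹ ≤ 2 := by
    rw [inv_le_comm₀ (by linarith) two_pos]; linarith
  have h4 : 0 ≤ ‖z‖ ^ 2 := by positivity
  calc ‖z‖ ^ 2 * (1 - ‖z‖)⁻¹ / 2 ≤ ‖z‖ ^ 2 * 2 / 2 := by gcongr
    _ = ‖z‖ ^ 2 := by ring

/-- `‖WW - QQ‖ ≤ ∑_𝔭 N𝔭^(-2)`. -/
theorem norm_WW_sub_QQ_le {s : ℝ} (hs : 1 < s) :
    ‖WW K χ s - QQ K χ s‖ ≤ primeSum K 2 := by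
  have hW : Summable (fun 𝔭 : HeightOneSpectrum (𝓞 K) =>
      -Complex.log (1 - chiTerm K χ s 𝔭.asIdeal)) := (summable_log K χ hs).neg
  have hQ := summable_chiTerm_prime K χ hs
  rw [WW, QQ, ← hW.tsum_sub hQ]
  refine tsum_of_norm_bounded (summable_primeSum K (by norm_num : (1 : ℝ) < 2)).hasSum fun 𝔭 => ?_
  refine (norm_neg_log_sub_le (norm_chiTerm_prime_le_half K χ hs.le 𝔭)).trans ?_
  have h1 := norm_chiTerm_le K χ s 𝔭.asIdeal
  have h2 : normPow K s 𝔭.asIdeal ^ 2 = normPow K (2 * s) 𝔭.asIdeal := normPow_sq K s _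
  have h3 : normPow K (2 * s) 𝔭.asIdeal ≤ normPow K 2 𝔭.asIdeal :=
    normPow_anti K (by linarith) _ (by norm_num)
  calc ‖chiTerm K χ s 𝔭.asIdeal‖ ^ 2 ≤ normPow K s 𝔭.asIdeal ^ 2 := by
        gcongr
    _ ≤ normPow K 2 𝔭.asIdeal := h2 ▸ h3

/-- continuity of `s ↦ χ(N𝔭) N𝔭^(-s)` -/
lemma continuous_chiTerm_prime (𝔭 : HeightOneSpectrum (𝓞 K)) :
    Continuous (fun s : ℝ => chiTerm K χ s 𝔭.asIdeal) := by
  have h2 : (2 : ℝ) ≤ absNorm 𝔭.asIdeal := by exact_mod_cast two_le_absNorm K 𝔭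
  have h0 : (absNorm 𝔭.asIdeal : ℝ) ≠ 0 := by linarith
  have hc : Continuous (fun s : ℝ => normPow K s 𝔭.asIdeal) := by
    unfold normPow
    exact (Real.continuous_const_rpow h0).comp continuous_neg
  unfold chiTerm
  exact continuous_const.mul (Complex.continuous_ofReal.comp hc)

lemma norm_neg_log_le {z : ℂ} (hz : ‖z‖ ≤ 1 / 2) :
    ‖-Complex.log (1 - z)‖ ≤ 3 / 2 * ‖z‖ := by
  have h := Complex.norm_log_one_add_half_le_self (z := -z) (by rwa [norm_neg])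
  rwa [norm_neg, ← sub_eq_add_neg, ← norm_neg] at h

/-- `WW K χ` is continuous on `(1, ∞)`. -/
theorem continuousOn_WW : ContinuousOn (WW K χ) (Set.Ioi 1) := by
  intro x hx
  have hx1 : (1 : ℝ) < x := hx
  apply ContinuousAt.continuousWithinAt
  set σ₀ : ℝ := (1 + x) / 2 with hσ₀
  have hσ1 : 1 < σ₀ := by rw [hσ₀]; linarith
  have hσx : σ₀ < x := by rw [hσ₀]; linarith
  have hcont : ContinuousOn (WW K χ) (Set.Ici σ₀) := by
    unfold WW
    refine continuousOn_tsum (u := fun 𝔭 : HeightOneSpectrum (𝓞 K) =>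
      3 / 2 * normPow K σ₀ 𝔭.asIdeal) (fun 𝔭 => ?_)
      ((summable_primeSum K hσ1).mul_left _) (fun 𝔭 s hs => ?_)
    · refine ContinuousOn.neg (ContinuousOn.clog ?_ fun s hs => ?_)
      · exact (continuous_const.sub (continuous_chiTerm_prime K χ 𝔭)).continuousOn
      · have hs1 : (1 : ℝ) ≤ s := hσ1.le.trans hs
        have := norm_chiTerm_prime_le_half K χ hs1 𝔭
        rw [sub_eq_add_neg]
        exact Complex.mem_slitPlane_of_norm_lt_one (by rw [norm_neg]; linarith)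
    · have hs' : σ₀ ≤ s := hs
      have hs1 : (1 : ℝ) ≤ s := hσ1.le.trans hs'
      refine (norm_neg_log_le (norm_chiTerm_prime_le_half K χ hs1 𝔭)).trans ?_
      gcongr
      exact (norm_chiTerm_le K χ s _).trans (normPow_anti K hs' _ (by linarith))
  exact hcont.continuousAt (Ici_mem_nhds hσx)

end

end Fermat.Agent.Lib.Cheb.H521
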