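import Fermat.Agent.Lib.Cheb.H521.LChi

/-!
# Orthogonality for the prime sums `QQ K χ s`

* `TT K m b s = ∑_{N𝔭 ≡ b mod m} N𝔭^(-s)`;
* `sum_inv_mul_QQ` : `∑_χ χ(a)⁻¹ QQ K χ s = φ(m) · TT K m a s` for a unit `a`;
* `card_filter_mul_orderOf` : `#{χ | χ a = 1} * orderOf a = φ(m)`.
-/

set_option autoImplicit false

namespace Fermat.Agent.Lib.Cheb.H521

open IsDedekindDomain Filter Topology NumberField Ideal
open Fermat.Agent.Lib.Cheb.H761

set_option linter.unusedSectionVars false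
set_option linter.unusedVariables false

noncomputable section

variable (K : Type*) [Field K] [NumberField K] (m : ℕ) [NeZero m]

/-- `∑_{N𝔭 ≡ b mod m} N𝔭^(-s)` -/
def TT (b : ZMod m) (s : ℝ) : ℝ :=
  ∑' 𝔭 : HeightOneSpectrum (𝓞 K),
    if ((absNorm 𝔭.asIdeal : ℕ) : ZMod m) = b then normPow K s 𝔭.asIdeal else 0

lemma summable_TT (b : ZMod m) {s : ℝ} (hs : 1 < s) :
    Summable (fun 𝔭 : HeightOneSpectrum (𝓞 K) =>
      if ((absNorm 𝔭.asIdeal : ℕ) : ZMod m) = b then normPow K s 𝔭.asIdeal else 0) := by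
  refine Summable.of_nonneg_of_le (fun 𝔭 => ?_) (fun 𝔭 => ?_) (summable_primeSum K hs)
  · split_ifs
    · exact normPow_nonneg K s _
    · exact le_rfl
  · split_ifs
    · exact le_rfl
    · exact normPow_nonneg K s _

lemma TT_nonneg (b : ZMod m) (s : ℝ) : 0 ≤ TT K m b s :=
  tsum_nonneg fun 𝔭 => by
    split_ifs
    · exact normPow_nonneg K s _
    · exact le_rfl

/-- **Orthogonality**: `∑_χ χ(a)⁻¹ QQ K χ s = φ(m) · TT K m a s`. -/
theorem sum_inv_mul_QQ {a : ZMod m} (ha : IsUnit a) {s : ℝ} (hs : 1 < s) :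
    ∑ χ : DirichletCharacter ℂ m, χ a⁻¹ * QQ K χ s =
      (m.totient : ℂ) * ((TT K m a s : ℝ) : ℂ) := by
  have h1 : ∀ χ : DirichletCharacter ℂ m, χ a⁻¹ * QQ K χ s =
      ∑' 𝔭 : HeightOneSpectrum (𝓞 K), χ a⁻¹ * chiTerm K χ s 𝔭.asIdeal := fun χ => by
    rw [QQ, tsum_mul_left]
  simp only [h1]
  rw [← Summable.tsum_finsetSum fun χ _ => (summable_chiTerm_prime K χ hs).mul_left _]
  rw [TT, Complex.ofReal_tsum, ← tsum_mul_left]
  refine tsum_congr fun 𝔭 => ?_
  have h2 : ∀ χ : DirichletCharacter ℂ m, χ a⁻¹ * chiTerm K χ s 𝔭.asIdeal =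
      (χ a⁻¹ * χ ((absNorm 𝔭.asIdeal : ℕ) : ZMod m)) * ((normPow K s 𝔭.asIdeal : ℝ) : ℂ) :=
    fun χ => by rw [chiTerm]; ring
  simp only [h2]
  rw [← Finset.sum_mul, DirichletCharacter.sum_char_inv_mul_char_eq ℂ ha]
  by_cases h : a = ((absNorm 𝔭.asIdeal : ℕ) : ZMod m)
  · rw [if_pos h, if_pos h.symm]
  · rw [if_neg h, if_neg (Ne.symm h)]
    simp

/-- `#{χ | χ a = 1} * orderOf a = φ(m)`. -/
theorem card_filter_mul_orderOf (a : (ZMod m)ˣ) :
    (Finset.univ.filter (fun χ : DirichletCharacter ℂ m => χ (a : ZMod m) = 1)).card * orderOf a =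
      m.totient := by
  classical
  set n := orderOf a with hn
  have hnpos : 0 < n := orderOf_pos a
  -- compute `∑_χ ∑_{j<n} χ(a^j)` in two ways
  have hA : ∑ χ : DirichletCharacter ℂ m, ∑ j ∈ Finset.range n, χ (((a ^ j : (ZMod m)ˣ)) : ZMod m) =
      (m.totient : ℂ) := by
    rw [Finset.sum_comm]
    have : ∀ j ∈ Finset.range n, ∑ χ : DirichletCharacter ℂ m, χ (((a ^ j : (ZMod m)ˣ)) : ZMod m) =
        if j = 0 then (m.totient : ℂ) else 0 := by
      intro j hj
      rw [DirichletCharacter.sum_characters_eq]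
      have hjn : j < n := Finset.mem_range.mp hj
      by_cases h0 : j = 0
      · subst h0; simp
      · rw [if_neg h0, if_neg]
        intro h1
        have h2 : a ^ j = 1 := Units.ext (by simpa using h1)
        exact pow_ne_one_of_lt_orderOf h0 hjn h2
    rw [Finset.sum_congr rfl this, Finset.sum_ite_eq' (Finset.range n) 0]
    simp [hnpos]
  have hB : ∑ χ : DirichletCharacter ℂ m, ∑ j ∈ Finset.range n, χ (((a ^ j : (ZMod m)ˣ)) : ZMod m) =
      ∑ χ : DirichletCharacter ℂ m, if χ (a : ZMod m) = 1 then (n : ℂ) else 0 := by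
    refine Finset.sum_congr rfl fun χ _ => ?_
    have hpow : ∀ j : ℕ, χ (((a ^ j : (ZMod m)ˣ)) : ZMod m) = χ (a : ZMod m) ^ j := fun j => by
      rw [Units.val_pow_eq_pow_val, map_pow]
    simp only [hpow]
    by_cases h1 : χ (a : ZMod m) = 1
    · rw [if_pos h1, h1]; simp
    · rw [if_neg h1]
      have hz : χ (a : ZMod m) ^ n = 1 := by
        rw [← hpow, hn, pow_orderOf_eq_one]; simp
      have := mul_geom_sum (χ (a : ZMod m)) n
      rw [hz, sub_self] at this
      rcases mul_eq_zero.mp this with h | h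
      · exact absurd (sub_eq_zero.mp h) h1
      · exact h
  rw [hA] at hB
  rw [Finset.sum_ite, Finset.sum_const, Finset.sum_const_zero, add_zero, nsmul_eq_mul] at hB
  exact_mod_cast hB.symm

end

end Fermat.Agent.Lib.Cheb.H521
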